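import Mathlib.RingTheory.DedekindDomain.Ideal.Lemmas
import Mathlib.RingTheory.DedekindDomain.Factorization
import Mathlib.Analysis.SpecificLimits.Normed
import Mathlib.Analysis.Normed.Group.Tannery
import Mathlib.Analysis.Complex.Basic

/-!
# Euler products over ideals

Euler products for absolutely summable completely multiplicative functions on the nonzero ideals
of a Dedekind domain.
-/

set_option autoImplicit false

noncomputable section

open IsDedekindDomain Filter Topology

open scoped nonZeroDivisors Classical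

namespace Fermat.Agent.ClassField

variable {R : Type*} [CommRing R] [IsDedekindDomain R]

/-- A height one prime as a nonzero divisor in the monoid of ideals. -/
def primeElt (P : HeightOneSpectrum R) : (Ideal R)⁰ :=
  ⟨P.asIdeal, mem_nonZeroDivisors_of_ne_zero P.ne_bot⟩

@[simp] lemma coe_primeElt (P : HeightOneSpectrum R) : (primeElt P : Ideal R) = P.asIdeal := rfl

/-- Ideals supported on a finite set of primes. -/
def supportedOn (S : Finset (HeightOneSpectrum R)) : Set (Ideal R)⁰ :=
  {I | ∀ P : HeightOneSpectrum R, P.asIdeal ∣ (I : Ideal R) → P ∈ S}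

lemma supportedOn_empty : supportedOn (∅ : Finset (HeightOneSpectrum R)) = {1} := by
  ext I
  simp only [supportedOn, Finset.notMem_empty, Set.mem_ofPred_eq, Set.mem_singleton_iff]
  constructor
  · intro h
    refine Subtype.ext ?_
    rw [OneMemClass.coe_one, Ideal.one_eq_top]
    by_contra htop
    obtain ⟨M, hM, hle⟩ := Ideal.exists_le_maximal _ htop
    have hb : M ≠ ⊥ := fun hb ↦ nonZeroDivisors.coe_ne_zero I (le_bot_iff.mp (hb ▸ hle))
    exact h ⟨M, hM.isPrime, hb⟩ (Ideal.dvd_iff_le.mpr hle)
  · rintro rfl P hP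
    exact P.isPrime.ne_top (Ideal.isUnit_iff.mp (isUnit_of_dvd_one hP))

lemma eventually_mem_supportedOn (I : (Ideal R)⁰) :
    ∀ᶠ S : Finset (HeightOneSpectrum R) in atTop, I ∈ supportedOn S := by
  have hfin := Ideal.finite_factors (I := (I : Ideal R)) (nonZeroDivisors.coe_ne_zero I)
  filter_upwards [eventually_ge_atTop hfin.toFinset] with S hS P hP
  exact hS (hfin.mem_toFinset.mpr hP)

/-- Splitting off the power of a new prime. -/
lemma bijective_split {S : Finset (HeightOneSpectrum R)} {P : HeightOneSpectrum R} (hP : P ∉ S) :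
    Function.Bijective (fun x : ℕ × supportedOn S ↦
      (⟨primeElt P ^ x.1 * x.2.1, fun Q hQ ↦ by
        rw [Submonoid.coe_mul, SubmonoidClass.coe_pow, coe_primeElt] at hQ
        rcases (Ideal.prime_of_isPrime Q.ne_bot Q.isPrime).dvd_or_dvd hQ with h | h
        · have h1 := (Ideal.prime_of_isPrime Q.ne_bot Q.isPrime).dvd_of_dvd_pow h
          have : P = Q := HeightOneSpectrum.ext
            (P.isPrime.isMaximal P.ne_bot |>.eq_of_le Q.isPrime.ne_top (Ideal.le_of_dvd h1))
          exact Finset.mem_insert.mpr (Or.inl this.symm)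
        · exact Finset.mem_insert_of_mem (x.2.2 Q h)⟩ : supportedOn (insert P S))) := by
  have hprime := Ideal.prime_of_isPrime P.ne_bot P.isPrime
  have hndvd : ∀ I : supportedOn S, ¬ P.asIdeal ∣ (I.1 : Ideal R) := fun I h ↦ hP (I.2 P h)
  constructor
  · rintro ⟨k, I⟩ ⟨l, J⟩ h
    simp only [Subtype.ext_iff, Submonoid.coe_mul, SubmonoidClass.coe_pow, coe_primeElt] at h
    have hkl : k = l := by
      by_contra hne
      rcases Nat.lt_or_gt_of_ne hne with hlt | hlt
      · obtain ⟨d, rfl⟩ : ∃ d, l = k + (d + 1) := ⟨l - k - 1, by omega⟩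
        rw [pow_add, mul_assoc, mul_right_inj' (pow_ne_zero _ P.ne_bot)] at h
        exact hndvd I ⟨P.asIdeal ^ d * J.1, by rw [h]; ring⟩
      · obtain ⟨d, rfl⟩ : ∃ d, k = l + (d + 1) := ⟨k - l - 1, by omega⟩
        rw [pow_add, mul_assoc, mul_right_inj' (pow_ne_zero _ P.ne_bot)] at h
        exact hndvd J ⟨P.asIdeal ^ d * I.1, by rw [← h]; ring⟩
    subst hkl
    rw [mul_right_inj' (pow_ne_zero _ P.ne_bot)] at h
    exact Prod.ext rfl (Subtype.ext (Subtype.ext h))
  · rintro ⟨I, hI⟩
    obtain ⟨k, J, hJ, hIJ⟩ := WfDvdMonoid.max_power_factor (nonZeroDivisors.coe_ne_zero I)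
      hprime.irreducible
    have hJ0 : J ∈ (Ideal R)⁰ := mem_nonZeroDivisors_of_ne_zero fun h ↦
      nonZeroDivisors.coe_ne_zero I (by rw [hIJ, h, mul_zero])
    refine ⟨(k, ⟨⟨J, hJ0⟩, fun Q hQ ↦ ?_⟩), Subtype.ext (Subtype.ext (by simp [hIJ]))⟩
    rcases Finset.mem_insert.mp (hI Q (hIJ ▸ dvd_mul_of_dvd_right hQ _)) with rfl | h
    · exact absurd hQ hJ
    · exact h

variable (f : (Ideal R)⁰ →* ℂ)

lemma hasSum_supportedOn (hf : Summable fun I ↦ ‖f I‖) (S : Finset (HeightOneSpectrum R)) :
    HasSum (fun I : supportedOn S ↦ f I.1) (∏ P ∈ S, (1 - f (primeElt P))⁻¹) := by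
  induction S using Finset.induction_on with
  | empty =>
    rw [Finset.prod_empty, supportedOn_empty]
    have := hasSum_fintype fun I : ({1} : Set (Ideal R)⁰) ↦ f I.1
    simpa using this
  | insert P S hP ih =>
    rw [Finset.prod_insert hP]
    let e := Equiv.ofBijective _ (bijective_split hP)
    rw [← e.hasSum_iff]
    have hgeom : HasSum (fun k : ℕ ↦ f (primeElt P) ^ k) (1 - f (primeElt P))⁻¹ := by
      refine hasSum_geometric_of_norm_lt_one ?_
      have hinj : Function.Injective fun k : ℕ ↦ primeElt P ^ k := fun a b h ↦ by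
        have := congrArg (fun I : (Ideal R)⁰ ↦ (I : Ideal R)) h
        simp only [SubmonoidClass.coe_pow, coe_primeElt] at this
        exact (Ideal.pow_right_strictAnti P.asIdeal P.ne_bot P.isPrime.ne_top).injective this
      have hs := hf.comp_injective hinj
      simp only [Function.comp_def, map_pow, norm_pow] at hs
      rw [summable_geometric_iff_norm_lt_one, norm_norm] at hs
      exact hs
    refine (hgeom.mul ih ?_).congr_fun fun x ↦ ?_
    · refine Summable.of_norm ((hf.comp_injective (f := fun I ↦ ‖f I‖)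
        (i := fun x : ℕ × supportedOn S ↦ (e x).1)
        (Subtype.val_injective.comp e.injective)).congr fun x ↦ ?_)
      simp [e, map_mul, map_pow]
    · simp [e, map_mul, map_pow]

/-- The Euler product. -/
theorem tendsto_eulerProduct (hf : Summable fun I ↦ ‖f I‖) :
    Tendsto (fun S : Finset (HeightOneSpectrum R) ↦ ∏ P ∈ S, (1 - f (primeElt P))⁻¹) atTop
      (𝓝 (∑' I, f I)) := by
  simp_rw [← fun S ↦ (hasSum_supportedOn f hf S).tsum_eq, tsum_subtype]
  refine tendsto_tsum_of_dominated_convergence hf (fun I ↦ ?_) (Eventually.of_forall fun S I ↦ ?_)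
  · refine tendsto_const_nhds.congr' ?_
    filter_upwards [eventually_mem_supportedOn I] with S hS
    exact (Set.indicator_of_mem hS _).symm
  · by_cases h : I ∈ supportedOn S <;> simp [h]

end Fermat.Agent.ClassField
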