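import Mathlib.RingTheory.Frobenius
import Mathlib.NumberTheory.NumberField.Cyclotomic.Galois
import Mathlib.RingTheory.Ideal.Quotient.HasFiniteQuotients
import Mathlib.Tactic
import Mathlib.NumberTheory.NumberField.Basic
import Mathlib.RingTheory.Ideal.Norm.AbsNorm
import Mathlib.FieldTheory.Finite.Basic

/-!
# Degree one primes and complete splitting

Degree one primes and a criterion for complete splitting in a Galois extension.
-/

set_option autoImplicit false

noncomputable section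

open NumberField
open scoped Pointwise

namespace Fermat.Agent.ClassField

section residue

variable {R : Type*} [CommRing R] [Nontrivial R] [IsDedekindDomain R] [Module.Free ℤ R]
  {P : Ideal R} {q : ℕ} [hq : Fact q.Prime]

omit [Nontrivial R] in
omit hq in
lemma natCard_quotient_eq (hP : Ideal.absNorm P = q) : Nat.card (R ⧸ P) = q := by
  rw [← hP, Ideal.absNorm_apply, Submodule.cardQuot_apply]

omit [Nontrivial R] in
omit hq in
lemma natCast_self_mem (hP : Ideal.absNorm P = q) : (q : R) ∈ P := hP ▸ Ideal.absNorm_mem P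

omit [Nontrivial R] in
/-- Modulo an ideal of prime norm every element is congruent to a natural number. -/
lemma exists_natCast_sub_mem (hP : Ideal.absNorm P = q) (x : R) : ∃ m : ℕ, x - m ∈ P := by
  have hcard := natCard_quotient_eq hP
  have hne : P ≠ ⊤ := fun h ↦ hq.out.ne_one (by rw [← hP, h, Ideal.absNorm_top])
  have h1 : (1 : R ⧸ P) ≠ 0 := by
    rw [← map_one (Ideal.Quotient.mk P), ne_eq, Ideal.Quotient.eq_zero_iff_mem]
    exact (Ideal.ne_top_iff_one P).mp hne
  obtain ⟨m, hm⟩ := mem_multiples_of_prime_card (G := R ⧸ P) hcard h1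
    (g' := Ideal.Quotient.mk P x)
  refine ⟨m, ?_⟩
  rw [← Ideal.Quotient.eq, map_natCast]
  simpa [nsmul_one] using hm.symm

omit [Nontrivial R] in
/-- Fermat's little theorem modulo a prime of norm `q`. -/
lemma pow_sub_one_sub_one_mem (hP : Ideal.absNorm P = q) [P.IsMaximal] {x : R} (hx : x ∉ P) :
    x ^ (q - 1) - 1 ∈ P := by
  have hcard := natCard_quotient_eq hP
  let := Ideal.Quotient.field P
  have : Finite (R ⧸ P) := Nat.finite_of_card_ne_zero (hcard ▸ hq.out.ne_zero)
  let := Fintype.ofFinite (R ⧸ P)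
  rw [← Ideal.Quotient.eq, map_pow, map_one, ← hcard, Nat.card_eq_fintype_card]
  exact FiniteField.pow_card_sub_one_eq_one _ (by rwa [ne_eq, Ideal.Quotient.eq_zero_iff_mem])

omit [Nontrivial R] hq [Module.Free ℤ R] in
omit [IsDedekindDomain R] in
lemma natCard_quotient_le [Finite (R ⧸ P)] [P.IsMaximal] {n : ℕ} (hn : 1 < n)
    (h : ∀ x : R, x ^ n - x ∈ P) : Nat.card (R ⧸ P) ≤ n := by
  let := Ideal.Quotient.field P
  let := Fintype.ofFinite (R ⧸ P)
  rw [Nat.card_eq_fintype_card]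
  have h0 := FiniteField.X_pow_card_sub_X_ne_zero (R ⧸ P) hn
  refine le_trans ?_ (le_of_eq (FiniteField.X_pow_card_sub_X_natDegree_eq (R ⧸ P) hn))
  refine Polynomial.card_le_degree_of_subset_roots (p := Polynomial.X ^ n - Polynomial.X)
    (Z := Finset.univ) fun a _ ↦ ?_
  obtain ⟨x, rfl⟩ := Ideal.Quotient.mk_surjective a
  rw [Polynomial.mem_roots h0, Polynomial.IsRoot.def, Polynomial.eval_sub, Polynomial.eval_pow,
    Polynomial.eval_X, ← map_pow, ← map_sub, Ideal.Quotient.eq_zero_iff_mem]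
  exact h x

end residue

/-- If `ξ ≠ 1` is a `p`-th root of unity, then `ξ - 1` lies in no prime avoiding `p`. -/
lemma sub_one_notMem {R : Type*} [CommRing R] [IsDomain R] {P : Ideal R} {p : ℕ} {ξ : R}
    (hξ : ξ ^ p = 1) (h1 : ξ ≠ 1) (hp : (p : R) ∉ P) : ξ - 1 ∉ P := by
  intro h
  have hs : ∑ j ∈ Finset.range p, ξ ^ j = 0 := by
    have := geom_sum_mul ξ p
    rw [hξ, sub_self] at this
    exact (mul_eq_zero.mp this).resolve_right (sub_ne_zero.mpr h1)
  apply hp
  have : ∑ j ∈ Finset.range p, (ξ ^ j - 1) ∈ P :=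
    sum_mem fun j _ ↦ Ideal.mem_of_dvd P (sub_one_dvd_pow_sub_one ξ j) h
  rw [Finset.sum_sub_distrib, hs, Finset.sum_const, Finset.card_range, nsmul_eq_mul, mul_one,
    zero_sub] at this
  exact neg_mem_iff.mp this

section galois

variable (K M : Type*) [Field K] [NumberField K] [Field M] [NumberField M] [Algebra K M]
  [IsGalois K M]

/-- If an element `β` detects the Galois group modulo `Q` and is fixed modulo `Q` by Frobenius,
then a degree one prime below `Q` splits completely. -/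
theorem absNorm_eq_and_stabilizer {Q : Ideal (𝓞 M)} [Q.IsPrime] {P : Ideal (𝓞 K)}
    [Q.LiesOver P] {q : ℕ} [hq : Fact q.Prime] (hP : Ideal.absNorm P = q) (β : 𝓞 M)
    (hdet : ∀ τ : M ≃ₐ[K] M, τ • β - β ∈ Q → τ = 1) (hpow : β ^ q - β ∈ Q) :
    Ideal.absNorm Q = q ∧ ∀ τ : M ≃ₐ[K] M, τ • Q = Q → τ = 1 := by
  have hPbot : P ≠ ⊥ := fun h ↦ hq.out.ne_zero (by rw [← hP, h, Ideal.absNorm_bot])
  have hQbot : Q ≠ ⊥ := Ideal.ne_bot_of_liesOver_of_ne_bot hPbot Q
  have hfin : Finite (𝓞 M ⧸ Q) := Ideal.finiteQuotientOfFreeOfNeBot Q hQbot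
  have hQmax : Q.IsMaximal := Ideal.IsPrime.isMaximal ‹_› hQbot
  obtain ⟨σ, hσ⟩ := IsArithFrobAt.exists_of_isInvariant (𝓞 K) (M ≃ₐ[K] M) Q
  have hcard : Nat.card (𝓞 K ⧸ Q.under (𝓞 K)) = q := by
    rw [← Ideal.LiesOver.over (P := Q) (p := P)]; exact natCard_quotient_eq hP
  have hσ' : ∀ x, σ • x - x ^ q ∈ Q := fun x ↦ hcard ▸ hσ x
  have hσ1 : σ = 1 := hdet σ (by simpa using add_mem (hσ' β) hpow)
  subst hσ1
  have hxq : ∀ x : 𝓞 M, x ^ q - x ∈ Q := fun x ↦ by
    have := hσ' x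
    rw [one_smul] at this
    simpa using neg_mem this
  have hle : Nat.card (𝓞 M ⧸ Q) ≤ q := natCard_quotient_le hq.out.one_lt hxq
  have hge : q ≤ Nat.card (𝓞 M ⧸ Q) := by
    have hinj : Function.Injective (algebraMap (𝓞 K ⧸ Q.under (𝓞 K)) (𝓞 M ⧸ Q)) :=
      Ideal.algebraMap_quotient_injective
    have := Nat.card_le_card_of_injective _ hinj
    exact (le_of_eq hcard.symm).trans this
  have hN : Ideal.absNorm Q = q := by
    rw [Ideal.absNorm_apply, Submodule.cardQuot_apply]; exact le_antisymm hle hge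
  refine ⟨hN, fun τ hτ ↦ hdet τ ?_⟩
  obtain ⟨m, hm⟩ := exists_natCast_sub_mem hN β
  have h1 : τ • (β - m) ∈ Q := hτ ▸ Ideal.smul_mem_pointwise_smul τ _ Q hm
  have h2 : τ • (β - (m : 𝓞 M)) = τ • β - m := by
    rw [smul_sub, ← MulSemiringAction.toRingHom_apply _ (𝓞 M) τ (m : 𝓞 M), map_natCast]
  rw [h2] at h1
  simpa using sub_mem h1 hm

end galois

end Fermat.Agent.ClassField
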