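import Fermat.Prelude.Def_ExtCitation_AdmissibleExtension_v2
import Fermat.Prelude.Def_ExtCitation_KummerBridge
import Fermat.Agent.Arith.Places

/-!
# The cocycle of an admissible extension

From an admissible extension `0 → ℤ/p → V → μ_p → 0` to a twisted cocycle on the absolute Galois
group: if `ω` is nontrivial and these cocycles vanish on its kernel, every such extension
splits.
-/

set_option autoImplicit false

noncomputable section

open ExtCitation

namespace Fermat.Agent.ClassField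

open Fermat.Agent.Arith

variable {p : ℕ} [hp : Fact p.Prime]

/-- The cocycle attached to an admissible extension. -/
structure IsExtCocycle (p : ℕ) [Fact p.Prime] (φ : GQ → ZMod p) : Prop where
  map_mul : ∀ σ τ : GQ, φ (σ * τ) = (cycloChar p τ : ZMod p) * φ σ + φ τ
  open_ker : IsOpen {σ : GQ | cycloChar p σ = 1 ∧ φ σ = 0}
  unramified : ∀ ℓ : ℕ, ℓ.Prime → ℓ ≠ p → ∀ A : ValuationSubring QBar, A.LiesOverPrime ℓ →
    ∀ σ ∈ A.inertiaSubgroupIn ℚ, φ σ = 0
  split : ∀ A : ValuationSubring QBar, A.LiesOverPrime p →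
    ∀ σ ∈ A.decompositionSubgroup ℚ, cycloChar p σ = 1 → φ σ = 0

section module

variable {V : Type} [AddCommGroup V] [Module (ZMod p) V]
  [DistribMulAction GQ V] [SMulCommClass GQ (ZMod p) V] {C : Submodule (ZMod p) V}

omit [DistribMulAction GQ V] [SMulCommClass GQ (ZMod p) V] in
/-- Coordinates with respect to a spanning vector of `C` and a vector outside `C`. -/
lemma exists_coords (hV : Nat.card V = p ^ 2) {c w : V} (hc : c ∈ C)
    (hc0 : c ≠ 0) (hw : w ∉ C) (x : V) : ∃ a b : ZMod p, x = a • w + b • c := by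
  have hinj : Function.Injective (fun t : ZMod p × ZMod p ↦ t.1 • w + t.2 • c) := by
    intro s t h
    have h1 : (s.1 - t.1) • w = (t.2 - s.2) • c := by
      rw [sub_smul, sub_smul, sub_eq_sub_iff_add_eq_add, add_comm (t.2 • c)]
      exact h
    have h2 : s.1 = t.1 := by
      by_contra hne
      apply hw
      rw [← inv_smul_smul₀ (sub_ne_zero.mpr hne) w, h1]
      exact C.smul_mem _ (C.smul_mem _ hc)
    refine Prod.ext h2 (smul_left_injective (ZMod p) hc0 ?_)
    have := h
    simp only [h2, add_right_inj] at this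
    exact this
  have : Finite V := Nat.finite_of_card_ne_zero (by rw [hV]; exact pow_ne_zero _ hp.out.ne_zero)
  have hbij : Function.Bijective (fun t : ZMod p × ZMod p ↦ t.1 • w + t.2 • c) :=
    (Nat.bijective_iff_injective_and_card _).mpr ⟨hinj, by
      rw [Nat.card_prod, Nat.card_zmod, hV, sq]⟩
  obtain ⟨t, ht⟩ := hbij.2 x
  exact ⟨t.1, t.2, ht.symm⟩

omit [DistribMulAction GQ V] [SMulCommClass GQ (ZMod p) V] in
lemma exists_smul_eq_of_mem (hC : Nat.card C = p) {c : V} (hc : c ∈ C) (hc0 : c ≠ 0) {x : V}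
    (hx : x ∈ C) : ∃ a : ZMod p, a • c = x := by
  have : Finite C := Nat.finite_of_card_ne_zero (by rw [hC]; exact hp.out.ne_zero)
  have hbij : Function.Bijective (fun a : ZMod p ↦ (⟨a • c, C.smul_mem a hc⟩ : C)) :=
    (Nat.bijective_iff_injective_and_card _).mpr
      ⟨fun a b h ↦ smul_left_injective (ZMod p) hc0 (congrArg Subtype.val h),
        by rw [Nat.card_zmod, hC]⟩
  obtain ⟨a, ha⟩ := hbij.2 ⟨x, hx⟩
  exact ⟨a, congrArg Subtype.val ha⟩

end module

/-- The trivial zeros of a twisted cocycle form an open set if they are a neighbourhood of `1`. -/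
private lemma isOpen_zeros {φ : GQ → ZMod p}
    (hmul : ∀ σ τ : GQ, φ (σ * τ) = (cycloChar p τ : ZMod p) * φ σ + φ τ) {U : Set GQ}
    (hU : U ∈ nhds (1 : GQ)) (hUH : U ⊆ {σ | cycloChar p σ = 1 ∧ φ σ = 0}) :
    IsOpen {σ : GQ | cycloChar p σ = 1 ∧ φ σ = 0} := by
  have h0 : φ 1 = 0 := by
    have := hmul 1 1
    rw [map_one, Units.val_one, one_mul, one_mul] at this
    exact left_eq_add.mp this
  let H : Subgroup GQ :=
    { carrier := {σ | cycloChar p σ = 1 ∧ φ σ = 0}
      mul_mem' := fun {a b} ha hb ↦ ⟨by rw [map_mul, ha.1, hb.1, mul_one], by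
        rw [hmul, ha.2, hb.2, mul_zero, add_zero]⟩
      one_mem' := ⟨map_one _, h0⟩
      inv_mem' := fun {a} ha ↦ ⟨by rw [map_inv, ha.1, inv_one], by
        have h1 := hmul a a⁻¹
        rw [mul_inv_cancel, h0, map_inv, ha.1, inv_one, Units.val_one, ha.2,
          mul_zero, zero_add] at h1
        exact h1.symm⟩ }
  show IsOpen (H : Set GQ)
  exact Subgroup.isOpen_of_mem_nhds H (g := 1) (Filter.mem_of_superset hU hUH)

/-- A twisted cocycle vanishing on the kernel of a nontrivial character is a coboundary. -/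
private lemma exists_coboundary (hχ : ∃ τ : GQ, cycloChar p τ ≠ 1) {φ : GQ → ZMod p}
    (hmul : ∀ σ τ : GQ, φ (σ * τ) = (cycloChar p τ : ZMod p) * φ σ + φ τ)
    (hker : ∀ σ, cycloChar p σ = 1 → φ σ = 0) :
    ∃ a : ZMod p, ∀ σ : GQ, φ σ = a * ((cycloChar p σ : ZMod p) - 1) := by
  have hsymm : ∀ σ τ : GQ, φ σ * ((cycloChar p τ : ZMod p) - 1) =
      φ τ * ((cycloChar p σ : ZMod p) - 1) := fun σ τ ↦ by
    have hk : cycloChar p ((τ * σ)⁻¹ * (σ * τ)) = 1 := by
      rw [map_mul, map_inv, map_mul, map_mul, mul_comm (cycloChar p τ) (cycloChar p σ),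
        inv_mul_cancel]
    have h1 := hmul (τ * σ) ((τ * σ)⁻¹ * (σ * τ))
    rw [mul_inv_cancel_left, hk, Units.val_one, one_mul, hker _ hk, add_zero, hmul σ τ, hmul τ σ]
      at h1
    linear_combination h1
  obtain ⟨τ, hτ⟩ := hχ
  have hτ' : (cycloChar p τ : ZMod p) - 1 ≠ 0 :=
    sub_ne_zero.mpr fun h ↦ hτ (Units.ext h)
  exact ⟨φ τ / ((cycloChar p τ : ZMod p) - 1), fun σ ↦ by
    rw [div_mul_eq_mul_div, eq_div_iff hτ', hsymm]⟩

/-- The line through a vector outside a line of a plane over `ZMod p` is a complement of it. -/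
private lemma isCompl_span_singleton {V : Type} [AddCommGroup V] [Module (ZMod p) V]
    {C : Submodule (ZMod p) V} (hV : Nat.card V = p ^ 2) {c w : V} (hc : c ∈ C) (hc0 : c ≠ 0)
    (hw : w ∉ C) : IsCompl C (Submodule.span (ZMod p) {w}) := by
  constructor
  · rw [disjoint_iff, Submodule.eq_bot_iff]
    rintro x ⟨hx1, hx2⟩
    obtain ⟨b, rfl⟩ := Submodule.mem_span_singleton.mp hx2
    by_cases hb : b = 0
    · rw [hb, zero_smul]
    · exact absurd (by simpa [inv_smul_smul₀ hb] using C.smul_mem b⁻¹ hx1) hw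
  · rw [codisjoint_iff, Submodule.eq_top_iff']
    intro x
    obtain ⟨b, d, rfl⟩ := exists_coords hV hc hc0 hw x
    exact Submodule.add_mem _ (Submodule.mem_sup_right
      (Submodule.smul_mem _ _ (Submodule.mem_span_singleton_self w)))
      (Submodule.mem_sup_left (C.smul_mem d hc))

/-- If every cocycle vanishes on the kernel of the cyclotomic character, admissible extensions
split. -/
theorem extVanishingCts_of_vanishing (hχ : ∃ τ : GQ, cycloChar p τ ≠ 1)
    (hvan : ∀ φ : GQ → ZMod p, IsExtCocycle p φ → ∀ σ, cycloChar p σ = 1 → φ σ = 0) :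
    ExtVanishingCts p := by
  intro V _ _ _ _ C hadm
  have hC := hadm.card_sub
  have hV := hadm.card_total
  have : Finite V := Nat.finite_of_card_ne_zero (by rw [hV]; exact pow_ne_zero _ hp.out.ne_zero)
  have hCbot : C ≠ ⊥ := by
    rintro rfl
    have h1 : Nat.card (⊥ : Submodule (ZMod p) V) = 1 := Nat.card_of_subsingleton 0
    exact hp.out.ne_one (hC.symm.trans h1)
  -- `σ v = χ(σ) v + φ(σ) c` for `c` spanning `C` and `v` outside it.
  obtain ⟨c, hc, hc0⟩ := Submodule.exists_mem_ne_zero_of_ne_bot hCbot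
  obtain ⟨v, hv⟩ : ∃ v : V, v ∉ C := by
    by_contra! h
    have : Nat.card C = Nat.card V :=
      Nat.card_congr (Equiv.subtypeUnivEquiv (p := fun x ↦ x ∈ C) h)
    rw [hC, hV] at this
    have h2 : p ^ 1 = p ^ 2 := by rwa [pow_one]
    have := Nat.pow_right_injective hp.out.two_le h2
    omega
  have hquot : ∀ σ : GQ, σ • v - (cycloChar p σ : ZMod p) • v ∈ C := fun σ ↦ by
    rw [coe_cycloChar]; exact hadm.cyclo_quot σ v
  choose φ hφ using fun σ : GQ ↦ exists_smul_eq_of_mem hC hc hc0 (hquot σ)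
  have hact : ∀ σ : GQ, σ • v = (cycloChar p σ : ZMod p) • v + φ σ • c := fun σ ↦ by
    rw [hφ σ, add_sub_cancel]
  have hfix : ∀ σ : GQ, σ • c = c := fun σ ↦ hadm.fixed_sub σ c hc
  have huniq : ∀ σ : GQ, σ • v = v → cycloChar p σ = 1 ∧ φ σ = 0 := fun σ h ↦ by
    rw [hact σ] at h
    have h1 : (cycloChar p σ : ZMod p) = 1 := by
      by_contra hne
      apply hv
      have h2 : (1 - (cycloChar p σ : ZMod p)) • v = φ σ • c := by
        rw [sub_smul, one_smul, sub_eq_iff_eq_add', h]
      rw [← inv_smul_smul₀ (sub_ne_zero.mpr (Ne.symm hne)) v, h2]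
      exact C.smul_mem _ (C.smul_mem _ hc)
    refine ⟨Units.ext h1, ?_⟩
    rw [h1, one_smul, add_eq_left, smul_eq_zero] at h
    exact h.resolve_right hc0
  have hmul : ∀ σ τ : GQ, φ (σ * τ) = (cycloChar p τ : ZMod p) * φ σ + φ τ := fun σ τ ↦ by
    refine smul_left_injective (ZMod p) hc0 ?_
    show φ (σ * τ) • c = _ • c
    have h1 := hact (σ * τ)
    rw [mul_smul, hact τ, smul_add, smul_comm σ, smul_comm σ, hact σ, hfix σ, smul_add, smul_smul,
      smul_smul, map_mul, Units.val_mul, mul_comm (cycloChar p τ : ZMod p) (cycloChar p σ),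
      add_assoc] at h1
    rw [add_smul]
    exact (add_left_cancel h1).symm
  -- The conditions on the extension make `φ` a cocycle of the extension, hence a coboundary.
  have hcoc : IsExtCocycle p φ := by
    refine ⟨hmul, ?_, fun ℓ hℓ hℓp A hA σ hσ ↦
      (huniq σ (hadm.unramified_outside ℓ hℓ hℓp A hA σ hσ v)).2, fun A hA σ hσ hχσ ↦ ?_⟩
    · exact isOpen_zeros hmul (hadm.open_kernel.mem_nhds (x := (1 : GQ)) fun x ↦ one_smul _ x)
        fun σ hσ ↦ huniq σ (hσ v)
    · obtain ⟨C', hstab, hcompl⟩ := hadm.locally_split A hA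
      obtain ⟨a, ha, w, hw, hadd⟩ := Submodule.mem_sup.mp
        (hcompl.sup_eq_top ▸ Submodule.mem_top (x := v))
      have h1 : σ • w - w = φ σ • c := by
        have h2 := hact σ
        rw [hχσ, Units.val_one, one_smul, ← hadd, smul_add, hadm.fixed_sub σ a ha] at h2
        rw [sub_eq_iff_eq_add']
        exact add_left_cancel (h2.trans (add_assoc a w _))
      have h3 : φ σ • c ∈ C ⊓ C' :=
        ⟨C.smul_mem _ hc, h1 ▸ C'.sub_mem (hstab σ hσ w hw) hw⟩
      rw [hcompl.inf_eq_bot, Submodule.mem_bot, smul_eq_zero] at h3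
      exact h3.resolve_right hc0
  obtain ⟨a, ha⟩ := exists_coboundary hχ hmul (hvan φ hcoc)
  -- So `v + a c` spans a stable complement.
  set w : V := v + a • c
  have hwC : w ∉ C := fun h ↦ hv (by simpa [w] using C.sub_mem h (C.smul_mem a hc))
  have hwact : ∀ σ : GQ, σ • w = (cycloChar p σ : ZMod p) • w := fun σ ↦ by
    rw [smul_add, smul_comm σ a c, hfix, hact, ha, smul_add, smul_smul, add_assoc, ← add_smul]
    congr 2
    ring
  refine ⟨Submodule.span (ZMod p) {w}, fun σ x hx ↦ ?_, isCompl_span_singleton hV hc hc0 hwC⟩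
  obtain ⟨b, rfl⟩ := Submodule.mem_span_singleton.mp hx
  rw [smul_comm σ b w, hwact, smul_smul]
  exact Submodule.smul_mem _ _ (Submodule.mem_span_singleton_self w)

end Fermat.Agent.ClassField
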