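import Fermat.Agent.ClassField.KummerReduction
import Fermat.Agent.ClassField.CaseThree

/-!
# Vanishing of admissible extensions

For `p ≥ 3` every admissible extension `0 → ℤ/p → V → μ_p → 0` splits: the submodule is fixed
pointwise and the quotient is cyclotomic (`extVanishingCts`, S14):

1. It suffices that the cocycle vanishes on the kernel of the cyclotomic character, as some
   element acts on `μ_p` by `-1 ≠ 1` (`extVanishingCts_of_vanishing`, `ExtCocycle`).
2. By Kummer theory it does if the elements of an eigenspace of `K^× / K^×p`, `K = ℚ(ζ_p)`,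
   with divisor a `p`-th power and the local conditions are `p`-th powers (`KummerReduction`).
3. They are: for `p ≥ 5` by Thaine's argument (`exists_pow_eq_of_eigen`), for `p = 3` as the
   class number is one and the eigen-units are cubes (`CaseThree`).
-/

set_option autoImplicit false

noncomputable section

open NumberField ExtCitation

namespace Fermat.Agent.ClassField

open Fermat.Agent.Arith

/-- For `p ≥ 3` admissible extensions `0 → ℤ/p → V → μ_p → 0` with continuous action split: over
`ℤ` there is no nonsplit one. -/
theorem extVanishingCts {p : ℕ} [hp : Fact p.Prime] (h3 : 3 ≤ p) : ExtVanishingCts p := by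
  have : NeZero p := ⟨hp.out.ne_zero⟩
  obtain ⟨z, hz⟩ := HasEnoughRootsOfUnity.exists_primitiveRoot QBar p
  let K : IntermediateField ℚ QBar := IntermediateField.adjoin ℚ {z}
  have : IsCyclotomicExtension {p} ℚ K :=
    hz.intermediateField_adjoin_isCyclotomicExtension ℚ
  have : NumberField K := IsCyclotomicExtension.numberField {p} ℚ K
  have : IsGalois ℚ K := IsCyclotomicExtension.isGalois {p} ℚ K
  have hzK : z ∈ K := IntermediateField.mem_adjoin_simple_self ℚ z
  let ζ : 𝓞 K := intOf hzK (hz.isIntegral hp.out.pos)
  have hζ : IsPrimitiveRoot ζ p :=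
    (IsPrimitiveRoot.of_map_of_injective (f := algebraMap (𝓞 K) K)
      (IsPrimitiveRoot.of_map_of_injective (f := algebraMap K QBar) hz
        (algebraMap K QBar).injective) RingOfIntegers.coe_injective)
  refine extVanishingCts_of_vanishing ?_ fun φ hφ σ hσ ↦
    cocycle_vanish K hζ (fun α hα heig hdiv hloc ↦ ?_) hφ σ hσ
  · obtain ⟨s, hs⟩ := (cycChar_bijective hζ).2 (-1)
    obtain ⟨g, rfl⟩ := AlgEquiv.restrictNormalHom_surjective (K₁ := K) QBar s
    refine ⟨g, fun h ↦ ?_⟩
    rw [cycloChar_eq hζ, hs] at h
    have h' : ((-1 : (ZMod p)ˣ) : ZMod p) = 1 := congrArg Units.val h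
    have : Fact (2 < p) := ⟨by omega⟩
    exact ZMod.neg_one_ne_one h'
  · by_cases h5 : 5 ≤ p
    · exact exists_pow_eq_of_eigen hζ h5 hα heig hdiv (hloc h5)
    · obtain rfl : p = 3 := by
        rcases (show p = 3 ∨ p = 4 by omega) with rfl | rfl
        · rfl
        · exact absurd hp.out (by norm_num)
      exact exists_pow_eq_of_eigen_three hζ hα heig hdiv

end Fermat.Agent.ClassField
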