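import Mathlib.RingTheory.ClassGroup.Basic
import Mathlib.RingTheory.Ideal.Norm.AbsNorm
import Mathlib.Tactic

/-!
# Exponents of primes in ideals

Exponents of primes in ideals of Dedekind domains, and class characters as functions on ideals.
-/

set_option autoImplicit false

noncomputable section

open NumberField UniqueFactorizationMonoid
open scoped Pointwise

namespace Fermat.Agent.ClassField

section exp

variable {R : Type*} [CommRing R] [IsDedekindDomain R]

/-- The exponent of `Q` in `I`. -/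
def idealExp (Q I : Ideal R) : ℕ := (normalizedFactors I).count Q

lemma idealExp_mul (Q : Ideal R) {I J : Ideal R} (hI : I ≠ ⊥) (hJ : J ≠ ⊥) :
    idealExp Q (I * J) = idealExp Q I + idealExp Q J := by
  rw [idealExp, normalizedFactors_mul hI hJ, Multiset.count_add]; rfl

lemma idealExp_pow (Q I : Ideal R) (n : ℕ) : idealExp Q (I ^ n) = n * idealExp Q I := by
  rw [idealExp, normalizedFactors_pow, Multiset.count_nsmul]; rfl

lemma idealExp_self {Q : Ideal R} (hQ : Prime Q) : idealExp Q Q = 1 := by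
  rw [idealExp, normalizedFactors_irreducible hQ.irreducible, normalize_eq,
    Multiset.count_singleton_self]

lemma idealExp_eq_zero {Q I : Ideal R} (h : ¬ Q ∣ I) : idealExp Q I = 0 :=
  Multiset.count_eq_zero.mpr fun hm ↦ h (dvd_of_mem_normalizedFactors hm)

/-- An ideal is the power of `Q` given by its exponent times a cofactor prime to `Q`. -/
lemma exists_eq_pow_idealExp_mul {Q I : Ideal R} (hQ : Prime Q) (hI : I ≠ ⊥) :
    ∃ A, I = Q ^ idealExp Q I * A ∧ ¬ Q ∣ A ∧ A ≠ ⊥ := by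
  obtain ⟨k, A, hA, h⟩ := WfDvdMonoid.max_power_factor hI hQ.irreducible
  have hA0 : A ≠ ⊥ := fun h0 ↦ hI (by rw [h, h0, ← Ideal.zero_eq_bot, mul_zero])
  have : idealExp Q I = k := by
    rw [h, idealExp_mul Q (pow_ne_zero _ hQ.ne_zero) hA0, idealExp_pow, idealExp_self hQ,
      idealExp_eq_zero hA, mul_one, add_zero]
  exact ⟨A, this ▸ h, hA, hA0⟩

lemma one_le_idealExp {Q I : Ideal R} (hQ : Prime Q) (hI : I ≠ ⊥) (h : Q ∣ I) :
    1 ≤ idealExp Q I := by
  obtain ⟨A, rfl⟩ := h
  rw [idealExp_mul Q hQ.ne_zero (right_ne_zero_of_mul hI), idealExp_self hQ]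
  omega

end exp

section number_field

variable {K F : Type*} [Field K] [NumberField K] [Field F] [NumberField F] [Algebra K F]

omit [NumberField K] [NumberField F] in
lemma map_ideal_ne_bot {I : Ideal (𝓞 K)} (hI : I ≠ ⊥) :
    I.map (algebraMap (𝓞 K) (𝓞 F)) ≠ ⊥ := fun h ↦
  hI ((Ideal.map_eq_bot_iff_of_injective (FaithfulSMul.algebraMap_injective _ _)).mp h)

/-- Exponents under extension of ideals multiply by the ramification index. -/
lemma idealExp_map {P : Ideal (𝓞 K)} [P.IsMaximal] {Q : Ideal (𝓞 F)} [Q.LiesOver P]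
    (hP : P ≠ ⊥) {I : Ideal (𝓞 K)} (hI : I ≠ ⊥) :
    idealExp Q (I.map (algebraMap (𝓞 K) (𝓞 F))) =
      idealExp Q (P.map (algebraMap (𝓞 K) (𝓞 F))) * idealExp P I := by
  obtain ⟨A, hA, hPA, hA0⟩ :=
    exists_eq_pow_idealExp_mul (Ideal.prime_of_isPrime hP ‹P.IsMaximal›.isPrime) hI
  have hQA : ¬ Q ∣ A.map (algebraMap (𝓞 K) (𝓞 F)) := by
    intro h
    apply hPA
    rw [Ideal.dvd_iff_le] at h ⊢
    exact (Ideal.map_le_iff_le_comap.mp h).trans_eq (Ideal.LiesOver.over (P := Q) (p := P)).symm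
  conv_lhs => rw [hA]
  rw [Ideal.map_mul, Ideal.map_pow, idealExp_mul Q (pow_ne_zero _ (map_ideal_ne_bot hP))
    (map_ideal_ne_bot hA0), idealExp_pow, idealExp_eq_zero hQA, add_zero, mul_comm]

omit [Algebra K F] in
lemma absNorm_smul {G : Type*} [Group G] [MulSemiringAction G (𝓞 F)] (σ : G) (I : Ideal (𝓞 F)) :
    Ideal.absNorm (σ • I) = Ideal.absNorm I := by
  rw [Ideal.absNorm_apply, Ideal.absNorm_apply, Submodule.cardQuot_apply, Submodule.cardQuot_apply]
  exact (Nat.card_congr (Ideal.quotientEquiv I (σ • I)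
    (MulSemiringAction.toRingEquiv G (𝓞 F) σ) rfl).toEquiv).symm

variable {p : ℕ}

/-- A class character as a function on ideals. -/
def idealChar (ψ : ClassGroup (𝓞 K) →* Multiplicative (ZMod p)) (I : Ideal (𝓞 K)) : ZMod p :=
  if h : I ≠ ⊥ then Multiplicative.toAdd (ψ (ClassGroup.mk0 ⟨I, mem_nonZeroDivisors_of_ne_zero h⟩))
  else 0

variable (ψ : ClassGroup (𝓞 K) →* Multiplicative (ZMod p))

lemma idealChar_mul {I J : Ideal (𝓞 K)} (hI : I ≠ ⊥) (hJ : J ≠ ⊥) :
    idealChar ψ (I * J) = idealChar ψ I + idealChar ψ J := by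
  have hIJ : I * J ≠ ⊥ := mul_ne_zero hI hJ
  rw [idealChar, idealChar, idealChar, dif_pos hIJ, dif_pos hI, dif_pos hJ,
    ← toAdd_mul, ← map_mul, ← map_mul]
  rfl

lemma idealChar_principal {x : 𝓞 K} (hx : x ≠ 0) : idealChar ψ (Ideal.span {x}) = 0 := by
  rw [idealChar, dif_pos (by simpa using hx), (ClassGroup.mk0_eq_one_iff _).mpr ⟨x, rfl⟩, map_one,
    toAdd_one]

lemma idealChar_multiset_prod (s : Multiset (Ideal (𝓞 K))) (hs : ∀ I ∈ s, I ≠ ⊥) :
    idealChar ψ s.prod = (s.map (idealChar ψ)).sum := by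
  induction s using Multiset.induction_on with
  | empty =>
    rw [Multiset.prod_zero, Multiset.map_zero, Multiset.sum_zero, Ideal.one_eq_top,
      ← Ideal.span_singleton_one, idealChar_principal ψ one_ne_zero]
  | cons a s ih =>
    rw [Multiset.prod_cons, Multiset.map_cons, Multiset.sum_cons, idealChar_mul ψ
      (hs a (Multiset.mem_cons_self a s))
      (Multiset.prod_ne_zero fun h ↦ hs _ (Multiset.mem_cons_of_mem h) rfl),
      ih fun I hI ↦ hs I (Multiset.mem_cons_of_mem hI)]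

lemma idealChar_eq_sum {I : Ideal (𝓞 K)} (hI : I ≠ ⊥) :
    idealChar ψ I = ∑ R ∈ (normalizedFactors I).toFinset,
    (idealExp R I : ZMod p) * idealChar ψ R := by
  conv_lhs => rw [← Ideal.prod_normalizedFactors_eq_self hI]
  rw [idealChar_multiset_prod ψ _ fun R hR ↦ (prime_of_normalized_factor R hR).ne_zero,
    Finset.sum_multiset_map_count]
  refine Finset.sum_congr rfl fun R _ ↦ ?_
  rw [nsmul_eq_mul]; rfl

end number_field

end Fermat.Agent.ClassField
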