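import Fermat.Agent.Arith.InertiaLift
import Fermat.Agent.ClassField.IdealExp
import Mathlib.Algebra.CharZero.Infinite
import Mathlib.NumberTheory.RamificationInertia.Galois
import Mathlib.RingTheory.Ideal.Quotient.HasFiniteQuotients

/-!
# Places of `ℚ̄` on finite subextensions

Places of the algebraic closure of `ℚ` seen on the integers of finite subextensions, and descent
of inertia to relative Galois groups.
-/

set_option autoImplicit false

noncomputable section

open NumberField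
open scoped Pointwise

namespace Fermat.Agent.ClassField

open Fermat.Agent.Arith

/-- The integers of a subfield of `QBar` inside the algebraic integers. -/
def embInt (L : IntermediateField ℚ QBar) : 𝓞 L →+* integralClosure ℤ QBar where
  toFun x := ⟨((x : L) : QBar), (x.2 : IsIntegral ℤ (x : L)).map (L.val.toRingHom.toIntAlgHom)⟩
  map_one' := Subtype.ext (by simp)
  map_mul' x y := Subtype.ext (by simp)
  map_zero' := Subtype.ext (by simp)
  map_add' x y := Subtype.ext (by simp)

/-- The prime of `𝓞 L` cut out by the place `A`. -/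
def centreAt (A : ValuationSubring QBar) (L : IntermediateField ℚ QBar) : Ideal (𝓞 L) :=
  (centre A).comap (embInt L)

/-- `centreAt A L` consists of the integers of `L` that are nonunits in `A`. -/
lemma mem_centreAt {A : ValuationSubring QBar} {L : IntermediateField ℚ QBar} {x : 𝓞 L} :
    x ∈ centreAt A L ↔ ((x : L) : QBar) ∈ A.nonunits := by
  rw [centreAt, Ideal.mem_comap, mem_centre]; rfl

instance centreAt_isPrime (A : ValuationSubring QBar) (L : IntermediateField ℚ QBar) :
    (centreAt A L).IsPrime := Ideal.IsPrime.comap _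

/-- An element of `L` integral over `ℤ`, as an element of `𝓞 L`. -/
def intOf {L : IntermediateField ℚ QBar} {x : QBar} (hx : x ∈ L) (hi : IsIntegral ℤ x) : 𝓞 L :=
  ⟨⟨x, hx⟩, (isIntegral_algHom_iff (L.val.toRingHom.toIntAlgHom) L.val.injective).mp hi⟩

section basic

variable {q : ℕ} {A : ValuationSubring QBar} {L : IntermediateField ℚ QBar}

lemma natCast_mem_centreAt (hA : A.LiesOverPrime q) : (q : 𝓞 L) ∈ centreAt A L := by
  rw [centreAt, Ideal.mem_comap, map_natCast, mem_centre]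
  exact hA

/-- The prime of a number field cut out by a place over a rational prime is nonzero. -/
lemma centreAt_ne_bot (hA : A.LiesOverPrime q) (hq : q.Prime) :
    centreAt A L ≠ ⊥ := fun h ↦ by
  have h1 := natCast_mem_centreAt (L := L) hA
  rw [h, Ideal.mem_bot, Nat.cast_eq_zero] at h1
  exact hq.ne_zero h1

lemma centreAt_isMaximal [NumberField L] (hA : A.LiesOverPrime q) (hq : q.Prime) :
    (centreAt A L).IsMaximal :=
  Ideal.IsPrime.isMaximal inferInstance (centreAt_ne_bot hA hq)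

end basic

/-- Every nonzero prime of a Galois number field inside `QBar` is the centre of some place. -/
lemma exists_centreAt_eq (K : IntermediateField ℚ QBar) [NumberField K] [IsGalois ℚ K]
    {R : Ideal (𝓞 K)} [R.IsPrime] (hR : R ≠ ⊥) :
    ∃ q : ℕ, q.Prime ∧ (q : 𝓞 K) ∈ R ∧
      ∃ A : ValuationSubring QBar, A.LiesOverPrime q ∧ centreAt A K = R := by
  have hfin : Finite (𝓞 K ⧸ R) := Ideal.finiteQuotientOfFreeOfNeBot R hR
  let q := ringChar (𝓞 K ⧸ R)
  have : CharP (𝓞 K ⧸ R) q := ringChar.charP _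
  have hq : q.Prime := by
    rcases CharP.char_is_prime_or_zero (𝓞 K ⧸ R) q with h | h
    · exact h
    · exfalso
      rw [h] at this
      have := CharP.charP_to_charZero (𝓞 K ⧸ R)
      exact not_finite (𝓞 K ⧸ R)
  have hqR : (q : 𝓞 K) ∈ R := by
    rw [← Ideal.Quotient.eq_zero_iff_mem, map_natCast, CharP.cast_eq_zero]
  refine ⟨q, hq, hqR, ?_⟩
  obtain ⟨A₀, hA₀⟩ := exists_liesOverPrime hq
  have : IsGaloisGroup Gal(K/ℚ) ℤ (𝓞 K) := IsGaloisGroup.of_isFractionRing Gal(K/ℚ) ℤ (𝓞 K) ℚ K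
  have hspan : ∀ P : Ideal (𝓞 K), P.IsPrime → (q : 𝓞 K) ∈ P →
      P.under ℤ = Ideal.span {(q : ℤ)} := fun P hP h ↦
    (((Ideal.liesOver_span_iff hP.ne_top (Nat.prime_iff_prime_int.mp hq))).mpr
      (by simpa using h)).over.symm
  obtain ⟨s, hs⟩ := Algebra.IsInvariant.exists_smul_of_under_eq ℤ (𝓞 K) Gal(K/ℚ) (centreAt A₀ K) R
    ((hspan _ inferInstance (natCast_mem_centreAt hA₀)).trans (hspan R inferInstance hqR).symm)
  obtain ⟨g, rfl⟩ := AlgEquiv.restrictNormalHom_surjective (K₁ := K) QBar s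
  refine ⟨g • A₀, liesOverPrime_smul_iff.mpr hA₀, ?_⟩
  rw [hs]
  ext x
  rw [centreAt, Ideal.mem_comap, centre_smul, Ideal.mem_pointwise_smul_iff_inv_smul_mem,
    Ideal.mem_pointwise_smul_iff_inv_smul_mem, mem_centre, mem_centreAt, ← map_inv]
  rw [integralClosure.coe_smul]
  have hc := AlgEquiv.restrictNormal_commutes g⁻¹ K (x : K)
  exact Iff.of_eq (congrArg (· ∈ A₀.nonunits) hc.symm)

section descent

variable {q : ℕ} {A : ValuationSubring QBar} {K L : IntermediateField ℚ QBar}

/-- An element of inertia at `centreAt A L` lifts to the inertia group at `A`. -/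
lemma exists_inertia_of_mem_inertia [NumberField L] [IsGalois ℚ L] [Algebra K L]
    [IsScalarTower ℚ K L] (hA : A.LiesOverPrime q) (hq : q.Prime)
    (hKL : ∀ x : K, ((algebraMap K L x : L) : QBar) = x) (τ : L ≃ₐ[K] L)
    (hτ : τ ∈ (centreAt A L).inertia (L ≃ₐ[K] L)) :
    ∃ g : GQ, g ∈ A.inertiaSubgroupIn ℚ ∧ (∀ x : L, g (x : QBar) = (τ x : L)) ∧
      ∀ x ∈ K, g x = x := by
  obtain ⟨g, hg⟩ := AlgEquiv.restrictNormalHom_surjective (K₁ := L) QBar (τ.restrictScalars ℚ)
  have hgx : ∀ x : L, g (x : QBar) = (τ x : L) := fun x ↦ by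
    have := AlgEquiv.restrictNormal_commutes g L x
    rw [show g.restrictNormal L = τ.restrictScalars ℚ from hg] at this
    exact this.symm
  have : L.fixingSubgroup.Normal := (InfiniteGalois.normal_iff_isGalois L).mpr ‹_›
  obtain ⟨h, hh, hin⟩ := exists_inertia_lift hA hq L.fixingSubgroup
    (L.fixingSubgroup_isClosed) g fun x hx hfix ↦ by
      have hxL : x ∈ L := by
        rw [← InfiniteGalois.fixedField_fixingSubgroup L]
        exact fun σ ↦ hfix σ.1 σ.2
      have h1 : τ • intOf hxL hx - intOf hxL hx ∈ centreAt A L := hτ _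
      rw [mem_centreAt] at h1
      rw [show g x = _ from hgx ⟨x, hxL⟩]
      exact h1
  have hhx : ∀ x : L, (h * g) (x : QBar) = (τ x : L) := fun x ↦ by
    rw [AlgEquiv.mul_apply, hgx]
    exact (IntermediateField.mem_fixingSubgroup_iff _ _).mp hh _ (τ x).2
  refine ⟨h * g, hin, hhx, fun x hx ↦ ?_⟩
  have h1 := hhx (algebraMap K L ⟨x, hx⟩)
  rwa [τ.commutes, hKL] at h1

end descent

section unramified

variable {K F : Type} [Field K] [NumberField K] [Field F] [NumberField F] [Algebra K F]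

/-- A prime with trivial inertia is unramified. -/
lemma idealExp_map_self_eq_one_of_inertia [IsGalois K F] {R : Ideal (𝓞 K)} [R.IsMaximal]
    {Q : Ideal (𝓞 F)} [Q.IsPrime] [Q.LiesOver R] (hR : R ≠ ⊥)
    (htriv : ∀ τ ∈ Q.inertia (F ≃ₐ[K] F), τ = 1) :
    idealExp Q (R.map (algebraMap (𝓞 K) (𝓞 F))) = 1 := by
  have : Finite (𝓞 K ⧸ R) := Ideal.finiteQuotientOfFreeOfNeBot R hR
  have : Finite R.ResidueField := IsLocalization.finite _ (nonZeroDivisors (𝓞 K ⧸ R))
  have : PerfectField R.ResidueField := PerfectField.ofFinite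
  have h1 : Nat.card (Q.inertia (F ≃ₐ[K] F)) = 1 := by
    rw [Nat.card_eq_one_iff_unique]
    exact ⟨⟨fun a b ↦ Subtype.ext ((htriv _ a.2).trans (htriv _ b.2).symm)⟩, ⟨1⟩⟩
  rw [Ideal.card_inertia_eq_ramificationIdxIn R Q,
    Ideal.ramificationIdxIn_eq_ramificationIdx R Q (F ≃ₐ[K] F),
    Ideal.IsDedekindDomain.ramificationIdx_eq_normalizedFactors_count R Q
    (map_ideal_ne_bot hR)] at h1
  exact h1

omit [Algebra K F] [NumberField K] [NumberField F] in
/-- A residue class fixed by the `p`-power map is the class of a natural number. -/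
lemma exists_natCast_sub_mem_of_pow {p : ℕ} [Fact p.Prime] {Q : Ideal (𝓞 F)} [Q.IsMaximal]
    (hp : (p : 𝓞 F) ∈ Q) {x : 𝓞 F} (hx : x ^ p - x ∈ Q) : ∃ m : ℕ, x - m ∈ Q := by
  let := Ideal.Quotient.field Q
  have : CharP (𝓞 F ⧸ Q) p := (CharP.charP_iff_prime_eq_zero Fact.out).mpr (by
    rw [← map_natCast (Ideal.Quotient.mk Q) p, Ideal.Quotient.eq_zero_iff_mem]; exact hp)
  have h1 : Ideal.Quotient.mk Q x ∈ (⊥ : Subfield (𝓞 F ⧸ Q)) := by
    rw [Subfield.mem_bot_iff_pow_eq_self (F := 𝓞 F ⧸ Q) (p := p), ← map_pow, Ideal.Quotient.eq]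
    exact hx
  obtain ⟨a, ha⟩ : ∃ a : ZMod p, ZMod.castHom (dvd_refl p) (𝓞 F ⧸ Q) a = Ideal.Quotient.mk Q x := by
    have hle : (⊥ : Subfield (𝓞 F ⧸ Q)) ≤ (ZMod.castHom (dvd_refl p) (𝓞 F ⧸ Q)).fieldRange := bot_le
    exact hle h1
  refine ⟨a.val, Ideal.Quotient.eq.mp ?_⟩
  rw [map_natCast, ← ha, ← map_natCast (ZMod.castHom (dvd_refl p) (𝓞 F ⧸ Q)), ZMod.natCast_val,
    ZMod.cast_id]

end unramified

end Fermat.Agent.ClassField
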