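import Fermat.Agent.ClassField.KummerPlaces
import Fermat.Agent.ClassField.ExtCocycle
import Fermat.Agent.ClassField.EigenTrivial

/-!
# Kummer theory for the cocycle

A cocycle of an extension `0 → ℤ/p → V → μ_p → 0` gives an element of the `ω²`-eigenspace of
`K^× / K^×p` with divisor a `p`-th power, `K = ℚ(ζ_p)`.

The conclusion is `cocycle_vanish`: if such elements are `p`-th powers, the cocycle vanishes on the
kernel of the cyclotomic character.
-/

set_option autoImplicit false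

noncomputable section

open NumberField ExtCitation

namespace Fermat.Agent.ClassField

open Fermat.Agent.Arith

variable {p : ℕ} [hp : Fact p.Prime]

/-! ### The cocycle on the kernel of the cyclotomic character -/

/-- The kernel of a cocycle on the kernel of the cyclotomic character. -/
def cocKer {φ : GQ → ZMod p} (hφ : IsExtCocycle p φ) : Subgroup GQ where
  carrier := {σ | cycloChar p σ = 1 ∧ φ σ = 0}
  mul_mem' {a b} ha hb := ⟨by rw [map_mul, ha.1, hb.1, mul_one], by
    rw [hφ.map_mul, ha.2, hb.2, mul_zero, add_zero]⟩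
  one_mem' := ⟨map_one _, by
    have h := hφ.map_mul 1 1
    rw [map_one, Units.val_one, one_mul, one_mul] at h
    exact left_eq_add.mp h⟩
  inv_mem' {a} ha := ⟨by rw [map_inv, ha.1, inv_one], by
    have h := hφ.map_mul a a⁻¹
    have h2 := hφ.map_mul 1 1
    rw [map_one, Units.val_one, one_mul, one_mul] at h2
    rw [mul_inv_cancel, left_eq_add.mp h2, map_inv, ha.1, inv_one, Units.val_one, ha.2,
      mul_zero, zero_add] at h
    exact h.symm⟩

section cocycle

variable {φ : GQ → ZMod p} (hφ : IsExtCocycle p φ)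

include hφ

/-- An extension cocycle vanishes at the identity. -/
lemma cocycle_one : φ 1 = 0 := (cocKer hφ).one_mem.2

lemma cocycle_inv (σ : GQ) : (cycloChar p σ : ZMod p) * φ σ⁻¹ = - φ σ := by
  have h := hφ.map_mul σ⁻¹ σ
  rw [inv_mul_cancel, cocycle_one hφ] at h
  exact eq_neg_of_add_eq_zero_left h.symm

lemma cocycle_conj {k : GQ} (hk : cycloChar p k = 1) (g : GQ) :
    φ (g⁻¹ * k * g) = (cycloChar p g : ZMod p) * φ k := by
  rw [hφ.map_mul, hφ.map_mul, hk, Units.val_one, one_mul, mul_add, cocycle_inv hφ]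
  ring

lemma cocKer_normal : (cocKer hφ).Normal := by
  refine ⟨fun k hk g ↦ ⟨?_, ?_⟩⟩
  · rw [map_mul, map_mul, hk.1, mul_one, ← map_mul, mul_inv_cancel, map_one]
  · have h := cocycle_conj hφ hk.1 g⁻¹
    rw [inv_inv] at h
    rw [h, hk.2, mul_zero]

lemma cocycle_pow {x : GQ} (hx : cycloChar p x = 1) (n : ℕ) :
    cycloChar p (x ^ n) = 1 ∧ φ (x ^ n) = n * φ x := by
  induction n with
  | zero => simpa using cocycle_one hφ
  | succ n ih =>
    refine ⟨by rw [map_pow, hx, one_pow], ?_⟩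
    rw [pow_succ, hφ.map_mul, hx, Units.val_one, one_mul, ih.2, Nat.cast_succ, add_mul, one_mul]

end cocycle

lemma root_pow_congr {z : QBar} (hz : IsPrimitiveRoot z p) {m n : ℕ} (h : (m : ZMod p) = n) :
    z ^ m = z ^ n := by
  rw [pow_eq_pow_mod m hz.pow_eq_one, pow_eq_pow_mod n hz.pow_eq_one,
    (ZMod.natCast_eq_natCast_iff' m n p).mp h]

/-! ### The Kummer element -/

section tower

variable {K : IntermediateField ℚ QBar} [NumberField K] [IsCyclotomicExtension {p} ℚ K]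
  {ζ : 𝓞 K} (hζ : IsPrimitiveRoot ζ p)

omit [NumberField K] [IsCyclotomicExtension {p} ℚ K] hp in
include hζ in
lemma isPrimitiveRoot_coe_zeta : IsPrimitiveRoot ((ζ : K) : QBar) p :=
  (hζ.map_of_injective (f := algebraMap (𝓞 K) K) RingOfIntegers.coe_injective).map_of_injective
    (f := algebraMap K QBar) (algebraMap K QBar).injective

omit [NumberField K] [IsCyclotomicExtension {p} ℚ K] in
include hζ in
lemma cycloChar_apply_zeta (g : GQ) :
    g ((ζ : K) : QBar) = ((ζ : K) : QBar) ^ (cycloChar p g : ZMod p).val := by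
  have hz := isPrimitiveRoot_coe_zeta hζ
  have : NeZero p := ⟨hp.out.ne_zero⟩
  have ht := (mem_rootsOfUnity p (hz.isUnit hp.out.ne_zero).unit).mpr
    (Units.ext (by rw [Units.val_pow_eq_pow_val, IsUnit.unit_spec, hz.pow_eq_one]; rfl))
  have h := modularCyclotomicCharacter.spec QBar (card_rootsOfUnity_eq_self p)
    (g : QBar ≃+* QBar) ht
  rw [IsUnit.unit_spec] at h
  exact h

variable [IsGalois ℚ K]

omit [NumberField K] in
lemma restrict_apply (g : GQ) (x : K) :
    ((AlgEquiv.restrictNormalHom K g x : K) : QBar) = g x :=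
  AlgEquiv.restrictNormal_commutes g K x

omit [IsCyclotomicExtension {p} ℚ ↥K] in
include hζ in
lemma cycloChar_eq (g : GQ) :
    cycloChar p g = cycChar hζ (AlgEquiv.restrictNormalHom K g) := by
  have hz := isPrimitiveRoot_coe_zeta hζ
  have h1 := cycloChar_apply_zeta hζ g
  have h2 := congrArg (fun t : 𝓞 K ↦ ((t : K) : QBar))
    (smul_zeta hζ (AlgEquiv.restrictNormalHom K g))
  rw [show (((AlgEquiv.restrictNormalHom K g • ζ : 𝓞 K) : K) : QBar) = g ((ζ : K) : QBar) from
    restrict_apply g (ζ : K), h1] at h2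
  rw [show (((ζ ^ (cycChar hζ (AlgEquiv.restrictNormalHom K g) : ZMod p).val : 𝓞 K) : K) : QBar) =
    ((ζ : K) : QBar) ^ (cycChar hζ (AlgEquiv.restrictNormalHom K g) : ZMod p).val from rfl] at h2
  exact Units.ext (ZMod.val_injective p (hz.pow_inj (ZMod.val_lt _) (ZMod.val_lt _) h2))

include hζ in
lemma fix_iff_cycloChar_eq_one (g : GQ) : (∀ x ∈ K, g x = x) ↔ cycloChar p g = 1 := by
  rw [cycloChar_eq hζ, ← map_one (cycChar hζ), (cycChar_bijective hζ).1.eq_iff]
  constructor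
  · exact fun h ↦ AlgEquiv.ext fun x ↦ Subtype.ext ((restrict_apply g x).trans (h x x.2))
  · intro h x hx
    rw [← restrict_apply g ⟨x, hx⟩, h]; rfl

include hζ in
lemma mem_of_fixed {x : QBar} (h : ∀ g : GQ, cycloChar p g = 1 → g x = x) : x ∈ K := by
  rw [← InfiniteGalois.fixedField_fixingSubgroup K]
  exact fun g ↦ h g.1 ((fix_iff_cycloChar_eq_one hζ g.1).mp
    fun y hy ↦ (IntermediateField.mem_fixingSubgroup_iff _ _).mp g.2 y hy)

/-- Kummer theory for the cocycle. -/
lemma exists_kummerElt {φ : GQ → ZMod p} (hφ : IsExtCocycle p φ) (L : IntermediateField ℚ QBar)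
    (hL : L.fixingSubgroup = cocKer hφ) {x₀ : GQ} (hx₀ : cycloChar p x₀ = 1) (hφ₀ : φ x₀ = 1)
    {z : QBar} (hz : IsPrimitiveRoot z p) (hfix : ∀ g : GQ, cycloChar p g = 1 → g z = z) :
    ∃ β : QBar, β ≠ 0 ∧ IsIntegral ℤ β ∧
      ∀ g : GQ, cycloChar p g = 1 → g β = z ^ (φ g).val * β := by
  have hsame : ∀ g g' : GQ, cycloChar p g = 1 → cycloChar p g' = 1 → φ g = φ g' →
      ∀ w ∈ L, g w = g' w := by
    intro g g' hg hg' h w hw
    have hmem : g'⁻¹ * g ∈ cocKer hφ := by
      refine ⟨by rw [map_mul, map_inv, hg, hg', inv_one, mul_one], ?_⟩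
      have h2 := cocycle_inv hφ g'
      rw [hg', Units.val_one, one_mul] at h2
      rw [hφ.map_mul, hg, Units.val_one, one_mul, h2, h, neg_add_cancel]
    rw [← hL] at hmem
    have h3 := (IntermediateField.mem_fixingSubgroup_iff _ _).mp hmem w hw
    calc g w = g' ((g'⁻¹ * g) w) := by rw [← AlgEquiv.mul_apply, mul_inv_cancel_left]
      _ = g' w := by rw [h3]
  -- Powers of `x₀` give `p` distinct embeddings of `L`.
  let x : ZMod p → GQ := fun a ↦ x₀ ^ a.val
  have hx : ∀ a, cycloChar p (x a) = 1 ∧ φ (x a) = a := fun a ↦ by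
    obtain ⟨h1, h2⟩ := cocycle_pow hφ hx₀ a.val
    refine ⟨h1, ?_⟩
    rw [h2, hφ₀, mul_one, ZMod.natCast_val, ZMod.cast_id]
  let f : ZMod p → (L →* QBar) := fun a ↦
    (((x a : QBar →ₐ[ℚ] QBar) : QBar →+* QBar).comp (algebraMap L QBar) : L →+* QBar)
  have hinj : Function.Injective f := by
    intro a b hab
    have hmem : (x b)⁻¹ * x a ∈ L.fixingSubgroup :=
      (IntermediateField.mem_fixingSubgroup_iff _ _).mpr fun w hw ↦ by
        have h : x a w = x b w := DFunLike.congr_fun hab ⟨w, hw⟩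
        rw [AlgEquiv.mul_apply, h, ← AlgEquiv.mul_apply, inv_mul_cancel]; rfl
    rw [hL] at hmem
    have h2 := hmem.2
    have h3 := cocycle_inv hφ (x b)
    rw [(hx b).1, Units.val_one, one_mul] at h3
    rw [hφ.map_mul, (hx a).1, Units.val_one, one_mul, h3, (hx a).2, (hx b).2] at h2
    exact (neg_add_eq_zero.mp h2).symm
  have : NeZero p := ⟨hp.out.ne_zero⟩
  let c : ZMod p → QBar := fun a ↦ z ^ (-a).val
  -- By independence of characters some Lagrange resolvent is nonzero; it is an eigen element.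
  obtain ⟨w, hw⟩ : ∃ w : L, ∑ a : ZMod p, c a * f a w ≠ 0 := by
    by_contra! h
    have hli : LinearIndependent QBar (fun a : ZMod p ↦ (f a : L → QBar)) :=
      (linearIndependent_monoidHom L QBar).comp f hinj
    have h0 := Fintype.linearIndependent_iff.mp hli c (funext fun w ↦ by
      rw [Finset.sum_apply]; exact h w) 0
    simp [c] at h0
  set β₀ := ∑ a : ZMod p, c a * f a w
  have hact : ∀ g : GQ, cycloChar p g = 1 → g β₀ = z ^ (φ g).val * β₀ := by
    intro g hg
    rw [map_sum, Finset.mul_sum, ← Equiv.sum_comp (Equiv.addRight (φ g))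
      (fun a ↦ z ^ (φ g).val * (c a * f a w))]
    refine Finset.sum_congr rfl fun a _ ↦ ?_
    rw [map_mul, ← mul_assoc]
    congr 1
    · simp only [c, map_pow, hfix g hg, Equiv.coe_addRight]
      rw [← pow_add]
      apply root_pow_congr hz
      simp only [Nat.cast_add, ZMod.natCast_val, ZMod.cast_id]
      ring
    · show (g * x a) (w : QBar) = x (a + φ g) (w : QBar)
      refine hsame _ _ (by rw [map_mul, hg, (hx a).1, mul_one]) (hx _).1 ?_ _ w.2
      rw [hφ.map_mul, (hx a).1, (hx a).2, (hx _).2, Units.val_one, one_mul, add_comm]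
  -- Clear its denominator.
  obtain ⟨m, hm, hint⟩ := ((IsFractionRing.isAlgebraic_iff ℤ ℚ QBar).mpr
    (Algebra.IsAlgebraic.isAlgebraic (R := ℚ) β₀)).exists_integral_multiple
  refine ⟨m • β₀, smul_ne_zero hm hw, hint, fun g hg ↦ ?_⟩
  rw [map_zsmul, hact g hg, mul_smul_comm]

include hζ in
/-- The `p`-th power of a Kummer element lies in the `ω²`-eigenspace. -/
lemma isSqEigen_kummer {φ : GQ → ZMod p} (hφ : IsExtCocycle p φ) {β : QBar} (hβ : β ≠ 0)
    (hβact : ∀ g : GQ, cycloChar p g = 1 → g β = ((ζ : K) : QBar) ^ (φ g).val * β)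
    {α : 𝓞 K} (hα : ((α : K) : QBar) = β ^ p) : IsSqEigen hζ (α : K) := by
  intro s
  obtain ⟨g, rfl⟩ := AlgEquiv.restrictNormalHom_surjective (K₁ := K) QBar s
  set n := sqExp hζ (AlgEquiv.restrictNormalHom K g)
  set z : QBar := ((ζ : K) : QBar)
  have hn : (n : ZMod p) = (cycloChar p g : ZMod p) ^ 2 := by
    rw [cast_sqExp, ← cycloChar_eq hζ]
  have hfix : ∀ k : GQ, cycloChar p k = 1 → k (g β / β ^ n) = g β / β ^ n := by
    intro k hk
    have hk' : cycloChar p (g⁻¹ * k * g) = 1 := by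
      rw [map_mul, map_mul, hk, mul_one, ← map_mul, inv_mul_cancel, map_one]
    have h1 : k (g β) = g ((g⁻¹ * k * g) β) := by
      simp only [← AlgEquiv.mul_apply]
      congr 1
      group
    rw [map_div₀, map_pow, h1, hβact _ hk', hβact _ hk, map_mul, map_pow,
      cycloChar_apply_zeta hζ g, mul_pow, ← pow_mul, ← pow_mul,
      root_pow_congr (isPrimitiveRoot_coe_zeta hζ)
        (m := (cycloChar p g : ZMod p).val * (φ (g⁻¹ * k * g)).val) (n := (φ k).val * n)]
    · exact mul_div_mul_left _ _ (pow_ne_zero _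
        ((isPrimitiveRoot_coe_zeta hζ).ne_zero hp.out.ne_zero))
    · rw [Nat.cast_mul, Nat.cast_mul, ZMod.natCast_val, ZMod.natCast_val, ZMod.natCast_val,
        ZMod.cast_id, ZMod.cast_id, ZMod.cast_id, hn, cocycle_conj hφ hk]
      ring
  have hgβ : g β ≠ 0 := fun h ↦ hβ (g.injective (h.trans (map_zero g).symm))
  refine ⟨⟨g β / β ^ n, mem_of_fixed hζ hfix⟩, fun h ↦ ?_, ?_⟩
  · exact div_ne_zero hgβ (pow_ne_zero _ hβ) (congrArg Subtype.val h)
  · apply Subtype.ext
    rw [restrict_apply]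
    push_cast
    rw [hα, map_pow, div_pow, ← pow_mul, ← pow_mul, mul_comm n p,
      mul_div_cancel₀ _ (pow_ne_zero _ hβ)]

variable {L : IntermediateField ℚ QBar} [NumberField L] [IsGalois ℚ L]
  {φ : GQ → ZMod p} (hφ : IsExtCocycle p φ)

include hζ in
/-- The primes of `K` are unramified in the Kummer field. -/
lemma idealExp_centreAt_map [Algebra K L] [IsScalarTower ℚ K L] [IsGalois K L]
    (hKL : ∀ x : K, ((algebraMap K L x : L) : QBar) = x) (hL : L.fixingSubgroup = cocKer hφ)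
    {q : ℕ} (hq : q.Prime) {A : ValuationSubring QBar} (hA : A.LiesOverPrime q)
    [(centreAt A L).LiesOver (centreAt A K)] :
    idealExp (centreAt A L) ((centreAt A K).map (algebraMap (𝓞 K) (𝓞 L))) = 1 := by
  have := centreAt_isMaximal (L := K) hA hq
  refine idealExp_map_self_eq_one_of_inertia (centreAt_ne_bot hA hq) fun τ hτ ↦ ?_
  obtain ⟨g, hg, hgx, hgK⟩ := exists_inertia_of_mem_inertia hA hq hKL τ hτ
  have hχ : cycloChar p g = 1 := (fix_iff_cycloChar_eq_one hζ g).mp hgK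
  have hφg : φ g = 0 := by
    by_cases hqp : q = p
    · subst hqp
      exact hφ.split A hA g (mem_decomposition_iff.mpr (mem_inertia_iff_forall_mem.mp hg).1) hχ
    · exact hφ.unramified q hq hqp A hA g hg
  have hmem : g ∈ L.fixingSubgroup := hL ▸ ⟨hχ, hφg⟩
  refine AlgEquiv.ext fun y ↦ Subtype.ext ?_
  exact (hgx y).symm.trans ((IntermediateField.mem_fixingSubgroup_iff _ _).mp hmem _ y.2)

end tower

lemma liesOver_centreAt {K L : IntermediateField ℚ QBar} [Algebra K L]
    (hKL : ∀ x : K, ((algebraMap K L x : L) : QBar) = x) (A : ValuationSubring QBar) :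
    (centreAt A L).LiesOver (centreAt A K) := by
  refine ⟨Ideal.ext fun x ↦ ?_⟩
  rw [Ideal.mem_under, mem_centreAt, mem_centreAt]
  exact Iff.of_eq (congrArg (· ∈ A.nonunits) (hKL _).symm)

lemma le_idealExp_of_pow_dvd {R : Type*} [CommRing R] [IsDedekindDomain R] {Q I : Ideal R}
    (hQ : Prime Q) (hI : I ≠ ⊥) {n : ℕ} (h : Q ^ n ∣ I) : n ≤ idealExp Q I := by
  obtain ⟨J, rfl⟩ := h
  rw [idealExp_mul Q (pow_ne_zero _ hQ.ne_zero) (right_ne_zero_of_mul hI), idealExp_pow,
    idealExp_self hQ, mul_one]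
  omega

/-! ### Its divisor and its behaviour at `p` -/

section main

variable {K : IntermediateField ℚ QBar} [NumberField K] [IsCyclotomicExtension {p} ℚ K]
  [IsGalois ℚ K] {ζ : 𝓞 K} (hζ : IsPrimitiveRoot ζ p)
  {L : IntermediateField ℚ QBar} [NumberField L] [IsGalois ℚ L] [Algebra K L]
  [IsScalarTower ℚ K L] [IsGalois K L]
  {φ : GQ → ZMod p} (hφ : IsExtCocycle p φ)
  (hKL : ∀ x : K, ((algebraMap K L x : L) : QBar) = x) (hL : L.fixingSubgroup = cocKer hφ)
  {β : QBar} (hβL : β ∈ L) (hβ : IsIntegral ℤ β) {α : 𝓞 K} (hα0 : α ≠ 0)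
  (hα : ((α : K) : QBar) = β ^ p)

include hζ hφ hKL hL hβL hβ hα0 hα in
lemma dvd_idealExp_kummer {R : Ideal (𝓞 K)} [R.IsPrime] (hR : R ≠ ⊥) :
    p ∣ idealExp R (Ideal.span {α}) := by
  obtain ⟨q, hq, -, A, hA, rfl⟩ := exists_centreAt_eq K hR
  have := centreAt_isMaximal (L := K) hA hq
  have := liesOver_centreAt hKL A
  have h := idealExp_map (F := L) (Q := centreAt A L) (centreAt_ne_bot hA hq)
    (I := Ideal.span {α}) (by simpa using hα0)
  rw [idealExp_centreAt_map hζ hφ hKL hL hq hA, one_mul, Ideal.map_span, Set.image_singleton] at h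
  have hb : algebraMap (𝓞 K) (𝓞 L) α = intOf hβL hβ ^ p :=
    RingOfIntegers.ext (Subtype.ext ((hKL _).trans hα))
  rw [hb, ← Ideal.span_singleton_pow, idealExp_pow] at h
  exact h ▸ dvd_mul_right p _

omit [IsGalois ℚ K] in
include hζ in
lemma absNorm_span_one_sub_zeta : Ideal.absNorm (Ideal.span {1 - ζ}) = p := by
  have hK : IsPrimitiveRoot (ζ : K) (p ^ (0 + 1)) := by
    simpa using hζ.map_of_injective (f := algebraMap (𝓞 K) K) RingOfIntegers.coe_injective
  have : IsCyclotomicExtension {p ^ (0 + 1)} ℚ K := by simpa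
  have h := IsCyclotomicExtension.Rat.absNorm_span_zeta_sub_one p 0 hK
  rwa [show hK.toInteger = ζ from RingOfIntegers.ext rfl, ← neg_sub,
    Ideal.span_singleton_neg] at h

omit [IsGalois ℚ K] in
include hζ in
lemma centreAt_eq_span {A : ValuationSubring QBar} (hA : A.LiesOverPrime p) :
    centreAt A K = Ideal.span {1 - ζ} := by
  have hpr := prime_one_sub_zeta hζ
  have h1 : 1 - ζ ∈ centreAt A K := by
    refine Ideal.IsPrime.mem_of_pow_mem inferInstance (p - 1) ?_
    rw [show (1 - ζ) ^ (p - 1) = (-1) ^ (p - 1) * (ζ - 1) ^ (p - 1) by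
      rw [← mul_pow, neg_one_mul, neg_sub]]
    obtain ⟨u, hu⟩ := associated_natCast_sub_one_pow hζ
    rw [← hu]
    exact Ideal.mul_mem_left _ _ (Ideal.mul_mem_right _ _ (natCast_mem_centreAt hA))
  have hmax : (Ideal.span {1 - ζ}).IsMaximal := by
    refine Ideal.IsPrime.isMaximal ((Ideal.span_singleton_prime hpr.ne_zero).mpr hpr) ?_
    simpa using hpr.ne_zero
  exact (hmax.eq_of_le (centreAt_isPrime A K).ne_top
    ((Ideal.span_singleton_le_iff_mem _).mpr h1)).symm

include hζ hφ hKL hL hβL hα in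
lemma local_kummer (h5 : 5 ≤ p) (u : (𝓞 K)ˣ) (hu : ∃ x : K, (u : K) = (α : K) * x ^ p) :
    ∃ z : 𝓞 K, (u : 𝓞 K) - z ^ p ∈ cubeIdeal ζ := by
  obtain ⟨x, hx⟩ := hu
  obtain ⟨A, hA⟩ := exists_liesOverPrime hp.out
  have hAK := centreAt_eq_span hζ hA
  have := centreAt_isMaximal (L := K) hA hp.out
  have := centreAt_isMaximal (L := L) hA hp.out
  have := liesOver_centreAt hKL A
  obtain ⟨σ, hσ⟩ := exists_isFrobeniusAt hA hp.out
  -- a Frobenius at `A` fixing `K`
  have : K.fixingSubgroup.Normal := (InfiniteGalois.normal_iff_isGalois K).mpr ‹_›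
  obtain ⟨h, hh, hin⟩ := exists_inertia_lift hA hp.out K.fixingSubgroup
    K.fixingSubgroup_isClosed σ fun y hy hfix ↦ by
      have hyK : y ∈ K := by
        rw [← InfiniteGalois.fixedField_fixingSubgroup K]
        exact fun g ↦ hfix g.1 g.2
      set s := AlgEquiv.restrictNormalHom K σ
      obtain ⟨m, hm⟩ := exists_natCast_sub_mem (absNorm_span_one_sub_zeta hζ) (intOf hyK hy)
      obtain ⟨t, ht⟩ := Ideal.mem_span_singleton.mp hm
      have hs1 : 1 - ζ ∣ s • (1 - ζ) := by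
        rw [smul_sub, smul_one, smul_zeta hζ, ← neg_sub ζ, ← neg_sub (ζ ^ _), neg_dvd, dvd_neg]
        exact sub_one_dvd_pow_sub_one ζ _
      have hmem : s • intOf hyK hy - intOf hyK hy ∈ centreAt A K := by
        rw [hAK, Ideal.mem_span_singleton, eq_add_of_sub_eq' ht, smul_add, smul_mul']
        rw [show s • (m : 𝓞 K) = m from map_natCast (MulSemiringAction.toRingHom _ (𝓞 K) s) m,
          add_sub_add_left_eq_sub]
        exact dvd_sub (dvd_mul_of_dvd_left hs1 _) (dvd_mul_right _ _)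
      rw [mem_centreAt] at hmem
      rw [← restrict_apply σ ⟨y, hyK⟩]
      exact hmem
  have hk := isFrobeniusAt_mul_inertia hσ ((A.inertiaSubgroupIn ℚ).inv_mem hin)
  rw [mul_inv_rev, mul_inv_cancel_left] at hk
  have hkχ : cycloChar p h⁻¹ = 1 := (fix_iff_cycloChar_eq_one hζ _).mp
    fun y hy ↦ (IntermediateField.mem_fixingSubgroup_iff _ _).mp (K.fixingSubgroup.inv_mem hh) y hy
  have hkL : h⁻¹ ∈ L.fixingSubgroup := hL ▸ ⟨hkχ, hφ.split A hA _
    (mem_decomposition_iff.mpr (isFrobeniusAt_iff_forall_mem.mp hk).1) hkχ⟩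
  have hres : ∀ y : 𝓞 L, y ^ p - y ∈ centreAt A L := fun y ↦ by
    rw [mem_centreAt]
    have h1 := (isFrobeniusAt_iff hA hp.out).mp hk ((y : L) : QBar)
      ((y.2 : IsIntegral ℤ (y : L)).map (L.val.toRingHom.toIntAlgHom))
    rw [(IntermediateField.mem_fixingSubgroup_iff _ _).mp hkL _ (y : L).2] at h1
    simpa using nonunits_neg h1
  -- the Kummer element of `u`
  have hbL : β * (x : QBar) ∈ L := mul_mem hβL (hKL x ▸ (algebraMap K L x).2)
  have hbp : (β * (x : QBar)) ^ p = ((u : K) : QBar) := by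
    rw [mul_pow, ← hα, hx]
    push_cast
    rfl
  have hbint : IsIntegral ℤ (β * (x : QBar)) := IsIntegral.of_pow hp.out.pos (hbp ▸
    ((u : 𝓞 K).2 : IsIntegral ℤ (u : K)).map (K.val.toRingHom.toIntAlgHom))
  set b := intOf hbL hbint
  obtain ⟨m, hm⟩ := exists_natCast_sub_mem_of_pow (natCast_mem_centreAt hA) (hres b)
  refine ⟨m, ?_⟩
  set w : 𝓞 K := (u : 𝓞 K) - (m : 𝓞 K) ^ p with hwdef
  by_cases hw0 : w = 0
  · rw [hw0]; exact zero_mem _
  have hwQ : algebraMap (𝓞 K) (𝓞 L) w ∈ centreAt A L ^ 3 := by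
    have hu' : algebraMap (𝓞 K) (𝓞 L) u = b ^ p :=
      RingOfIntegers.ext (Subtype.ext ((hKL _).trans hbp.symm))
    obtain ⟨r, hr⟩ := exists_add_pow_prime_eq hp.out (m : 𝓞 L) (b - m)
    rw [add_sub_cancel] at hr
    rw [hwdef, map_sub, map_pow, map_natCast, hu', hr,
      show (m : 𝓞 L) ^ p + (b - m) ^ p + p * m * (b - m) * r - (m : 𝓞 L) ^ p =
        (b - m) ^ p + p * (m * (b - m) * r) by ring]
    refine add_mem (Ideal.pow_le_pow_right (by omega : 3 ≤ p) (Ideal.pow_mem_pow hm p))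
      (Ideal.mul_mem_right _ _ ?_)
    obtain ⟨c, hc⟩ := pow_dvd_natCast hζ (show 3 ≤ p - 1 by omega)
    rw [← map_natCast (algebraMap (𝓞 K) (𝓞 L)), hc, map_mul, map_pow]
    refine Ideal.mul_mem_right _ _ (Ideal.pow_mem_pow ?_ 3)
    rw [← Ideal.mem_comap, ← Ideal.under_def, ← Ideal.LiesOver.over (p := centreAt A K), hAK]
    exact Ideal.mem_span_singleton_self _
  have hwb : Ideal.span {w} ≠ ⊥ := by simpa using hw0
  have h3 := le_idealExp_of_pow_dvd
    (Ideal.prime_of_isPrime (centreAt_ne_bot (L := L) hA hp.out) inferInstance)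
    (map_ideal_ne_bot (F := L) hwb) (n := 3) (by
      rw [Ideal.map_span, Set.image_singleton, Ideal.dvd_iff_le, Ideal.span_singleton_le_iff_mem]
      exact hwQ)
  rw [idealExp_map (centreAt_ne_bot hA hp.out) hwb, idealExp_centreAt_map hζ hφ hKL hL hp.out hA,
    one_mul] at h3
  obtain ⟨J, hJ, -⟩ := exists_eq_pow_idealExp_mul
    (Ideal.prime_of_isPrime (centreAt_ne_bot (L := K) hA hp.out) inferInstance) hwb
  rw [cubeIdeal, ← Ideal.span_singleton_pow, ← hAK, ← Ideal.span_singleton_le_iff_mem, hJ]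
  exact Ideal.mul_le_left.trans (Ideal.pow_le_pow_right h3)

end main

/-! ### Vanishing of the cocycle -/

/-- If eigen-elements of `ω²`-type are `p`-th powers, the cocycle vanishes on the kernel of the
cyclotomic character. -/
theorem cocycle_vanish (K : IntermediateField ℚ QBar) [NumberField K]
    [IsCyclotomicExtension {p} ℚ K] [IsGalois ℚ K] {ζ : 𝓞 K} (hζ : IsPrimitiveRoot ζ p)
    (hroot : ∀ α : 𝓞 K, α ≠ 0 → IsSqEigen hζ (α : K) →
      (∀ R : Ideal (𝓞 K), R.IsPrime → R ≠ ⊥ → p ∣ idealExp R (Ideal.span {α})) →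
      (5 ≤ p → ∀ u : (𝓞 K)ˣ, (∃ x : K, (u : K) = (α : K) * x ^ p) →
        ∃ z : 𝓞 K, (u : 𝓞 K) - z ^ p ∈ cubeIdeal ζ) →
      ∃ x : K, x ^ p = (α : K))
    {φ : GQ → ZMod p} (hφ : IsExtCocycle p φ) (σ : GQ) (hσ : cycloChar p σ = 1) : φ σ = 0 := by
  by_contra hne
  -- Otherwise `φ` takes the value `1` on the kernel, cutting out an extension `L` of `K`.
  obtain ⟨x₀, hx₀, hφ₀⟩ : ∃ x₀ : GQ, cycloChar p x₀ = 1 ∧ φ x₀ = 1 := by
    obtain ⟨h1, h2⟩ := cocycle_pow hφ hσ (φ σ)⁻¹.val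
    refine ⟨_, h1, ?_⟩
    rw [h2, ZMod.natCast_val, ZMod.cast_id, inv_mul_cancel₀ hne]
  have := cocKer_normal hφ
  let L : IntermediateField ℚ QBar := IntermediateField.fixedField (cocKer hφ)
  have hopen : IsOpen ((cocKer hφ : Subgroup GQ) : Set GQ) := hφ.open_ker
  have hL : L.fixingSubgroup = cocKer hφ := InfiniteGalois.fixingSubgroup_fixedField
    ⟨cocKer hφ, (cocKer hφ).isClosed_of_isOpen hopen⟩
  have : FiniteDimensional ℚ L :=
    (InfiniteGalois.isOpen_iff_finite L).mp (by rw [hL]; exact hopen)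
  have : IsGalois ℚ L := (InfiniteGalois.normal_iff_isGalois L).mp (by rw [hL]; infer_instance)
  have : NumberField L := { to_finiteDimensional := inferInstance }
  have hKL' : K ≤ L := fun y hy g ↦ (fix_iff_cycloChar_eq_one hζ g.1).mpr g.2.1 y hy
  let : Algebra K L := (IntermediateField.inclusion hKL').toRingHom.toAlgebra
  have : IsScalarTower ℚ K L := IsScalarTower.of_algebraMap_eq fun _ ↦ rfl
  have : IsGalois K L := IsGalois.tower_top_of_isGalois ℚ K L
  have hKL : ∀ x : K, ((algebraMap K L x : L) : QBar) = x := fun _ ↦ rfl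
  have hz := isPrimitiveRoot_coe_zeta hζ
  -- By Kummer theory it contains an eigen element `β`, with `α = β ^ p` in `K`.
  obtain ⟨β, hβ0, hβint, hβact⟩ := exists_kummerElt hφ L hL hx₀ hφ₀ hz
    fun g hg ↦ (fix_iff_cycloChar_eq_one hζ g).mpr hg _ (ζ : K).2
  have hβL : β ∈ L := fun g ↦ by
    rw [show g • β = g.1 β from rfl, hβact g.1 g.2.1, g.2.2, ZMod.val_zero, pow_zero, one_mul]
  have hαK : β ^ p ∈ K := mem_of_fixed hζ fun g hg ↦ by
    rw [map_pow, hβact g hg, mul_pow, ← pow_mul, mul_comm _ p, pow_mul, hz.pow_eq_one, one_pow,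
      one_mul]
  let α : 𝓞 K := intOf hαK (hβint.pow p)
  have hα : ((α : K) : QBar) = β ^ p := rfl
  have hα0 : α ≠ 0 := fun h ↦ pow_ne_zero p hβ0 (by rw [← hα, h]; rfl)
  obtain ⟨x, hx⟩ := hroot α hα0 (isSqEigen_kummer hζ hφ hβ0 hβact hα)
    (fun R _ hR ↦ dvd_idealExp_kummer hζ hφ hKL hL hβL hβint hα0 hα hR)
    (fun h5 u hu ↦ local_kummer hζ hφ hKL hL hβL hα h5 u hu)
  have hxQ : ((x : QBar)) ^ p = β ^ p := by rw [← hα, ← hx]; rfl
  have hx0 : (x : QBar) ≠ 0 := fun h ↦ pow_ne_zero p hβ0 (by rw [← hxQ, h, zero_pow hp.out.ne_zero])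
  have : NeZero p := ⟨hp.out.ne_zero⟩
  -- As `α` is a `p`-th power, `β` lies in `K`, yet `x₀` moves it.
  obtain ⟨i, -, hi⟩ := hz.eq_pow_of_pow_eq_one (ξ := β / x)
    (by rw [div_pow, hxQ, div_self (pow_ne_zero _ hβ0)])
  have hβK : β ∈ K := by
    rw [← div_mul_cancel₀ β hx0, ← hi]
    exact mul_mem (pow_mem (ζ : K).2 i) x.2
  have h1 := hβact x₀ hx₀
  rw [(fix_iff_cycloChar_eq_one hζ x₀).mpr hx₀ β hβK, hφ₀, ZMod.val_one, pow_one] at h1
  exact hz.ne_one hp.out.one_lt (mul_right_cancel₀ hβ0 (by rw [one_mul]; exact h1.symm))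

end Fermat.Agent.ClassField
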