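import Fermat.Agent.ClassField.IdealExp
import Fermat.Agent.ClassField.Density
import Mathlib.RepresentationTheory.Homological.GroupCohomology.Hilbert90
import Mathlib.RingTheory.RootsOfUnity.Lemmas

/-!
# Thaine's argument

Thaine's argument in its simplest form: for a degree one prime `P` prime to `p` with orbit of full
size, the element `1 - ζ` is turned by Hilbert 90 in `K(ζ_q)/K` into a relation between the primes
over `q` in the class group.

The main theorem is `thaine`.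
-/

set_option autoImplicit false

noncomputable section

open NumberField UniqueFactorizationMonoid
open scoped Classical Pointwise

namespace Fermat.Agent.ClassField

variable {K : Type} [Field K] [NumberField K] {p : ℕ} [hp : Fact p.Prime]
  {q : ℕ} [hq : Fact q.Prime] {P : Ideal (𝓞 K)}

/-! ### The orbit of a split prime -/

section split

variable {G : Type*} [Group G] [Fintype G]
    [MulSemiringAction G (𝓞 K)]

omit [Fintype G] [NumberField K] in
/-- If only `1` fixes `P`, then `σ ↦ σ • P` is injective. -/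
private lemma smul_injective_of_free (hfree : ∀ σ : G, σ • P = P → σ = 1) :
    Function.Injective fun σ : G ↦ σ • P := fun a b h ↦ by
  have := hfree (b⁻¹ * a) (by rw [mul_smul, show a • P = b • P from h, inv_smul_smul])
  rw [inv_mul_eq_one.mp this]

/-- If the orbit of a degree one prime `P` over `q` has full size, it exhausts `(q)`. -/
lemma prod_orbit_eq_span (hP : Ideal.absNorm P = q) [P.IsPrime]
    (hcard : Fintype.card G = Module.finrank ℚ K) (hfree : ∀ σ : G, σ • P = P → σ = 1) :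
    ∏ σ : G, σ • P = Ideal.span {(q : 𝓞 K)} := by
  have hPbot : P ≠ ⊥ := fun h ↦
    hq.out.ne_zero (by rw [← hP, h, Ideal.absNorm_bot])
  have hinj := smul_injective_of_free hfree
  have hne : ∀ σ : G, σ • P ≠ ⊥ := fun σ h ↦ hq.out.ne_zero (by
    rw [← hP, ← absNorm_smul σ P, h, Ideal.absNorm_bot])
  have hdvd : ∏ σ : G, σ • P ∣ Ideal.span {(q : 𝓞 K)} := by
    rw [← Finset.prod_image (s := Finset.univ) (g := fun σ : G ↦ σ • P) (f := fun I ↦ I) hinj.injOn]
    refine Finset.prod_primes_dvd _ (fun I hI ↦ ?_) (fun I hI ↦ ?_)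
    · obtain ⟨σ, -, rfl⟩ := Finset.mem_image.mp hI
      exact Ideal.prime_of_isPrime (hne σ) inferInstance
    · obtain ⟨σ, -, rfl⟩ := Finset.mem_image.mp hI
      rw [Ideal.dvd_span_singleton]
      exact natCast_self_mem (by rw [absNorm_smul, hP])
  obtain ⟨A, hA⟩ := hdvd
  have h := congrArg Ideal.absNorm hA
  rw [map_mul, map_prod, Finset.prod_congr rfl fun σ _ ↦ (absNorm_smul σ P).trans hP,
    Finset.prod_const, Finset.card_univ, hcard, Ideal.absNorm_span_singleton,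
    show (q : 𝓞 K) = algebraMap ℤ (𝓞 K) q by simp, Algebra.norm_algebraMap, RingOfIntegers.rank,
    Int.natAbs_pow, Int.natAbs_natCast] at h
  have : A = ⊤ := Ideal.absNorm_eq_one_iff.mp
    (mul_eq_left₀ (pow_ne_zero _ hq.out.ne_zero) |>.mp h.symm)
  rw [hA, this, ← Ideal.one_eq_top, mul_one]

/-- Each conjugate of a degree one prime `P` with orbit of full size divides `(q)` exactly once. -/
private lemma idealExp_orbit_span_natCast (hP : Ideal.absNorm P = q) [P.IsPrime]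
    (hcard : Fintype.card G = Module.finrank ℚ K) (hfree : ∀ σ : G, σ • P = P → σ = 1) (σ : G) :
    idealExp (σ • P) (Ideal.span {(q : 𝓞 K)}) = 1 := by
  have hne : ∀ σ : G, σ • P ≠ ⊥ := fun σ h ↦ hq.out.ne_zero (by
    rw [← hP, ← absNorm_smul σ P, h, Ideal.absNorm_bot])
  have hprime : ∀ σ : G, Prime (σ • P) := fun σ ↦ Ideal.prime_of_isPrime (hne σ) inferInstance
  have hmax : ∀ σ : G, (σ • P).IsMaximal := fun σ ↦ Ideal.IsPrime.isMaximal inferInstance (hne σ)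
  rw [← prod_orbit_eq_span hP hcard hfree, ← Finset.mul_prod_erase _ _ (Finset.mem_univ σ),
    idealExp_mul _ (hne σ) (Finset.prod_ne_zero_iff.mpr fun τ _ ↦ hne τ), idealExp_self (hprime σ),
    idealExp_eq_zero, add_zero]
  intro h
  obtain ⟨τ, hτ, h'⟩ := (hprime σ).exists_mem_finset_dvd h
  exact (Finset.ne_of_mem_erase hτ) (smul_injective_of_free hfree ((hmax τ).eq_of_le
    (hmax σ).ne_top (Ideal.le_of_dvd h')))

end split

/-! ### Ramification in `K(ζ_q)/K` -/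

section tower

omit hp hq in
/-- `q` is `(μ - 1) ^ (q - 1)` up to a unit, `μ` a primitive `q`-th root of unity. -/
lemma associated_natCast_sub_one_pow {R : Type*} [CommRing R] [IsDomain R] {q : ℕ}
    [hq : Fact q.Prime] {μ : R} (hμ : IsPrimitiveRoot μ q) :
    Associated (q : R) ((μ - 1) ^ (q - 1)) := by
  obtain ⟨n, rfl⟩ : ∃ n, q = n + 1 := ⟨q - 1, by have := hq.out.one_lt; omega⟩
  rw [Nat.cast_succ, ← hμ.prod_one_sub_pow_eq_order, Nat.add_sub_cancel,
    show (μ - 1) ^ n = ∏ _k ∈ Finset.range n, (μ - 1) by simp]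
  refine Associated.prod _ _ _ fun k hk ↦ ?_
  rw [← neg_sub]
  refine (Associated.refl _).neg_left.trans ?_
  refine (hμ.associated_sub_one_pow_sub_one_of_coprime (Nat.Coprime.symm ?_)).symm
  rw [hq.out.coprime_iff_not_dvd]
  rw [Finset.mem_range] at hk
  exact fun h ↦ by have := Nat.le_of_dvd (Nat.succ_pos k) h; omega

variable {F : Type} [Field F] [NumberField F] [Algebra K F]

/-- In `K(ζ_q)/K` a prime `R` not over `q` is unramified. -/
lemma idealExp_map_self_eq_one [IsGalois K F] [IsCyclotomicExtension {q} K F] {μ : 𝓞 F}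
    (hμ : IsPrimitiveRoot μ q) {R : Ideal (𝓞 K)} [R.IsMaximal] {Q : Ideal (𝓞 F)} [Q.IsPrime]
    [Q.LiesOver R] (hR : R ≠ ⊥) (hqR : (q : 𝓞 K) ∉ R) :
    idealExp Q (R.map (algebraMap (𝓞 K) (𝓞 F))) = 1 := by
  have hqQ : (q : 𝓞 F) ∉ Q := fun h ↦ hqR (by
    rw [Ideal.LiesOver.over (P := Q) (p := R), Ideal.mem_under, map_natCast]; exact h)
  have htriv : ∀ τ ∈ Q.inertia (F ≃ₐ[K] F), τ = 1 := by
    intro τ hτ
    have hmem : τ • μ - μ ∈ Q := hτ μ
    have hfix : τ • μ = μ := by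
      by_contra hne
      have hu := (hμ.isUnit hq.out.ne_zero)
      set v := hu.unit
      have hv : (v : 𝓞 F) = μ := rfl
      have hξ : (τ • μ * (v⁻¹ : (𝓞 F)ˣ)) ^ q = 1 := by
        rw [mul_pow, ← smul_pow', hμ.pow_eq_one, smul_one, one_mul, ← Units.val_pow_eq_pow_val,
          inv_pow, show v ^ q = 1 from Units.ext (by
            rw [Units.val_pow_eq_pow_val, hv, hμ.pow_eq_one]; rfl),
          inv_one, Units.val_one]
      refine sub_one_notMem hξ (fun h ↦ hne ?_) hqQ ?_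
      · have := congrArg (· * μ) h
        rwa [mul_assoc, ← hv, Units.inv_mul, mul_one, one_mul] at this
      · have := Q.mul_mem_right ((v⁻¹ : (𝓞 F)ˣ) : 𝓞 F) hmem
        rwa [sub_mul, ← hv, Units.mul_inv, hv] at this
    refine IsCyclotomicExtension.algEquiv_eq_of_apply_eq {q} K F ?_
    intro n hn _
    obtain rfl : n = q := hn
    refine ⟨(μ : F), hμ.map_of_injective RingOfIntegers.coe_injective, ?_⟩
    exact congrArg (algebraMap (𝓞 F) F) hfix
  have : Finite (𝓞 K ⧸ R) := Ideal.finiteQuotientOfFreeOfNeBot R hR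
  have : Finite R.ResidueField := IsLocalization.finite _ (nonZeroDivisors (𝓞 K ⧸ R))
  have : PerfectField R.ResidueField := PerfectField.ofFinite
  have h1 : Nat.card (Q.inertia (F ≃ₐ[K] F)) = 1 := by
    rw [Nat.card_eq_one_iff_unique]
    exact ⟨⟨fun a b ↦ Subtype.ext ((htriv _ a.2).trans (htriv _ b.2).symm)⟩, ⟨1⟩⟩
  rw [Ideal.card_inertia_eq_ramificationIdxIn R Q,
    Ideal.ramificationIdxIn_eq_ramificationIdx R Q (F ≃ₐ[K] F),
    Ideal.IsDedekindDomain.ramificationIdx_eq_normalizedFactors_count R Q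
    (map_ideal_ne_bot hR)] at h1
  exact h1

omit [Algebra K F] in
/-- A prime containing `q` has norm at least `q`. -/
private lemma le_absNorm_of_natCast_mem {Q : Ideal (𝓞 F)} [Q.IsPrime]
    (hqQ : (q : 𝓞 F) ∈ Q) : q ≤ Ideal.absNorm Q := by
  have h1 : Ideal.absNorm Q ≠ 1 := fun h ↦
    (‹Q.IsPrime›).ne_top (Ideal.absNorm_eq_one_iff.mp h)
  have hdvd : Ideal.absNorm Q ∣ q ^ Module.finrank ℚ F := by
    have := Ideal.absNorm_dvd_absNorm_of_le ((Ideal.span_singleton_le_iff_mem Q).mpr hqQ)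
    rwa [Ideal.absNorm_span_singleton, show (q : 𝓞 F) = algebraMap ℤ (𝓞 F) q by simp,
      Algebra.norm_algebraMap, RingOfIntegers.rank, Int.natAbs_pow, Int.natAbs_natCast] at this
  obtain ⟨j, -, hj⟩ := (Nat.dvd_prime_pow hq.out).mp hdvd
  rw [hj]
  exact Nat.le_self_pow (fun h ↦ h1 (by rw [hj, h, pow_zero])) q

/-- In `K(ζ_q)/K` a degree one prime `R` over `q` is totally ramified. -/
lemma totallyRamified [IsGalois K F] [IsCyclotomicExtension {q} K F] {μ : 𝓞 F}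
    (hμ : IsPrimitiveRoot μ q) (hq3 : 3 ≤ q) {R : Ideal (𝓞 K)} [R.IsMaximal]
    (hR : Ideal.absNorm R = q) (hqR : idealExp R (Ideal.span {(q : 𝓞 K)}) = 1) :
    ∃ Q : Ideal (𝓞 F), Q.IsPrime ∧ Q.LiesOver R ∧ Ideal.absNorm Q = q ∧
      Nat.card (F ≃ₐ[K] F) = q - 1 ∧ R.map (algebraMap (𝓞 K) (𝓞 F)) = Q ^ (q - 1) ∧
      idealExp Q (Ideal.span {μ - 1}) = 1 ∧ ∀ τ : F ≃ₐ[K] F, τ • Q = Q := by
  have hRbot : R ≠ ⊥ := fun h ↦ hq.out.ne_zero (by rw [← hR, h, Ideal.absNorm_bot])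
  obtain ⟨Q, hQmax, hQR⟩ := Ideal.exists_maximal_ideal_liesOver_of_isIntegral (S := 𝓞 F) R
  have hQbot : Q ≠ ⊥ := Ideal.ne_bot_of_liesOver_of_ne_bot hRbot Q
  have hQpr : Prime Q := Ideal.prime_of_isPrime hQbot hQmax.isPrime
  have hqQ : (q : 𝓞 F) ∈ Q := by
    have : (q : 𝓞 K) ∈ R := natCast_self_mem hR
    rw [Ideal.LiesOver.over (P := Q) (p := R), Ideal.mem_under, map_natCast] at this
    exact this
  have hμ1 : μ - 1 ≠ 0 := sub_ne_zero.mpr (hμ.ne_one hq.out.one_lt)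
  have hqspan : Ideal.span {(q : 𝓞 F)} = Ideal.span {μ - 1} ^ (q - 1) := by
    rw [Ideal.span_singleton_pow, Ideal.span_singleton_eq_span_singleton]
    exact associated_natCast_sub_one_pow hμ
  have hπQ : Q ∣ Ideal.span {μ - 1} := by
    refine hQpr.dvd_of_dvd_pow (n := q - 1) ?_
    rw [← hqspan, Ideal.dvd_span_singleton]; exact hqQ
  -- `e` is a positive multiple of `q - 1`, as `(q) = (μ - 1) ^ (q - 1)`
  set e := idealExp Q (R.map (algebraMap (𝓞 K) (𝓞 F))) with he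
  have he1 : e = (q - 1) * idealExp Q (Ideal.span {μ - 1}) := by
    have h := idealExp_map (F := F) (Q := Q) hRbot (I := Ideal.span {(q : 𝓞 K)})
      (by simp [hq.out.ne_zero])
    rw [Ideal.map_span, Set.image_singleton, map_natCast, hqR, mul_one, hqspan, idealExp_pow] at h
    exact h.symm
  have hπ1 : 1 ≤ idealExp Q (Ideal.span {μ - 1}) := one_le_idealExp hQpr (by simpa using hμ1) hπQ
  -- comparing norms in `R 𝓞 F = Q ^ e A` squeezes `e`, the norm of `Q` and `A`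
  obtain ⟨A, hA, -, hA0⟩ := exists_eq_pow_idealExp_mul hQpr (map_ideal_ne_bot (F := F) hRbot)
  have hN : q ^ Module.finrank (𝓞 K) (𝓞 F) = Ideal.absNorm Q ^ e * Ideal.absNorm A := by
    have h : Ideal.absNorm (R.map (algebraMap (𝓞 K) (𝓞 F))) = Ideal.absNorm R ^ Module.finrank
        (𝓞 K) (𝓞 F) :=
      Ideal.absNorm_algebraMap (𝓞 K) (𝓞 F) R
    rw [hA, map_mul, map_pow, hR] at h
    exact h.symm
  have hfin : Module.finrank (𝓞 K) (𝓞 F) = Nat.card (F ≃ₐ[K] F) :=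
    (IsGaloisGroup.card_eq_finrank' (F ≃ₐ[K] F) (𝓞 K) (𝓞 F)).symm
  have hcardle : Nat.card (F ≃ₐ[K] F) ≤ q - 1 := by
    have hμF := hμ.map_of_injective (f := algebraMap (𝓞 F) F) RingOfIntegers.coe_injective
    refine (Nat.card_le_card_of_injective _ (hμF.autToPow_injective K)).trans_eq ?_
    rw [Nat.card_eq_fintype_card, ZMod.card_units q]
  have : Q.IsPrime := hQmax.isPrime
  have hQq : q ≤ Ideal.absNorm Q := le_absNorm_of_natCast_mem hqQ
  have hA1 : 1 ≤ Ideal.absNorm A := Nat.one_le_iff_ne_zero.mpr fun h ↦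
    hA0 (Ideal.absNorm_eq_zero_iff.mp h)
  have hle : q ^ e * Ideal.absNorm A ≤ q ^ Nat.card (F ≃ₐ[K] F) := by
    rw [← hfin, hN]; exact Nat.mul_le_mul_right _ (Nat.pow_le_pow_left hQq e)
  have hee : e = q - 1 ∧ Nat.card (F ≃ₐ[K] F) = q - 1 ∧ idealExp Q (Ideal.span {μ - 1}) = 1 := by
    have h1 : e ≤ Nat.card (F ≃ₐ[K] F) := (Nat.pow_le_pow_iff_right hq.out.one_lt).mp
      (le_trans (Nat.le_mul_of_pos_right _ hA1) hle)
    have h2 : q - 1 ≤ e := he1 ▸ Nat.le_mul_of_pos_right _ hπ1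
    refine ⟨by omega, by omega, ?_⟩
    have h3 : (q - 1) * idealExp Q (Ideal.span {μ - 1}) = (q - 1) * 1 := by omega
    exact Nat.eq_of_mul_eq_mul_left (by omega) h3
  obtain ⟨hee1, hee2, hee3⟩ := hee
  rw [hfin, hee2, hee1] at hN
  have hNQ : Ideal.absNorm Q = q := by
    refine le_antisymm ?_ hQq
    refine (Nat.pow_le_pow_iff_left (by omega : q - 1 ≠ 0)).mp ?_
    exact (Nat.le_mul_of_pos_right _ hA1).trans_eq hN.symm
  have hAtop : A = ⊤ := by
    rw [hNQ] at hN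
    exact Ideal.absNorm_eq_one_iff.mp ((mul_eq_left₀ (pow_ne_zero _ hq.out.ne_zero)).mp hN.symm)
  have hmap : R.map (algebraMap (𝓞 K) (𝓞 F)) = Q ^ (q - 1) := by
    rw [hA, hAtop, ← Ideal.one_eq_top, mul_one, ← he, hee1]
  refine ⟨Q, hQmax.isPrime, hQR, hNQ, hee2, hmap, hee3, fun τ ↦ ?_⟩
  have hle' : Q ^ (q - 1) ≤ τ • Q := by
    rw [← hmap, Ideal.map_le_iff_le_comap]
    exact le_of_eq (Ideal.LiesOver.over (P := τ • Q) (p := R))
  exact (hQmax.eq_of_le (Ideal.IsPrime.ne_top inferInstance)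
    ((inferInstance : (τ • Q).IsPrime).pow_le_iff (by omega) |>.mp hle')).symm

end tower

/-- The element attached to `ζ` and to exponents `n`. -/
def twistedUnit {G : Type*} [Group G] [Fintype G]
    [MulSemiringAction G (𝓞 K)] (n : G → ℕ)
    (ζ : 𝓞 K) : 𝓞 K :=
  ∏ σ : G, (σ⁻¹ • (1 - ζ)) ^ n σ

/-! ### Hilbert 90 and the exponents -/

section steps

variable {F : Type} [Field F] [NumberField F] [Algebra K F]

omit hp hq in
/-- `∏ (1 - a μ ^ i)`, over `i < q`, is `1 - a ^ q`. -/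
private lemma prod_range_one_sub_mul_pow {R : Type*} [CommRing R] [IsDomain R] {μ : R}
    (hμ : IsPrimitiveRoot μ q) (hq0 : 0 < q) (a : R) :
    ∏ i ∈ Finset.range q, (1 - a * μ ^ i) = 1 - a ^ q := by
  have h := hμ.pow_sub_pow_eq_prod_sub_mul 1 a hq0
  rw [one_pow] at h
  rw [h]
  refine Finset.prod_bij (fun j _ ↦ μ ^ j) (fun j _ ↦ ?_)
    (fun x hx y hy h ↦ hμ.pow_inj (Finset.mem_range.mp hx) (Finset.mem_range.mp hy) h)
    (fun ξ hξ ↦ ?_) (fun j _ ↦ by rw [mul_comm])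
  · rw [Polynomial.mem_nthRootsFinset hq0, ← pow_mul, mul_comm, pow_mul, hμ.pow_eq_one, one_pow]
  · rw [Polynomial.mem_nthRootsFinset hq0] at hξ
    have : NeZero q := ⟨hq0.ne'⟩
    obtain ⟨i, hi, rfl⟩ := hμ.eq_pow_of_pow_eq_one hξ
    exact ⟨i, Finset.mem_range.mpr hi, rfl⟩

omit hp in
/-- For a `p`-th root of unity `ζ` with `p ∣ q - 1`, the conjugates of `1 - ζ μ` over `K` multiply
to `1`. -/
private lemma prod_smul_one_sub_mul_eq_one [IsGalois K F] {μ' : F} (hμ' : IsPrimitiveRoot μ' q)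
    {ζ : 𝓞 K}
    (hζ : IsPrimitiveRoot ζ p) (hζ1 : ζ ≠ 1) (hdvdp : p ∣ q - 1)
    (hbij : Function.Bijective (hμ'.autToPow K)) :
    ∏ τ : F ≃ₐ[K] F, τ • (1 - algebraMap (𝓞 K) (𝓞 F) ζ * hμ'.toInteger) = 1 := by
  set μ : 𝓞 F := hμ'.toInteger
  have hμ : IsPrimitiveRoot μ q := hμ'.toInteger_isPrimitiveRoot
  set a : 𝓞 F := algebraMap (𝓞 K) (𝓞 F) ζ
  -- the conjugates are the `1 - a μ ^ i`, `0 < i < q`
  have hterm : ∀ τ : F ≃ₐ[K] F,
      τ • (1 - a * μ) = 1 - a * μ ^ (hμ'.autToPow K τ : ZMod q).val := fun τ ↦ by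
    rw [smul_sub, smul_one, smul_mul',
      show τ • a = a from smul_algebraMap τ ζ,
      show τ • μ = μ ^ (hμ'.autToPow K τ : ZMod q).val from
        RingOfIntegers.ext (hμ'.autToPow_spec K τ).symm]
  rw [Fintype.prod_bijective _ hbij _ (fun u : (ZMod q)ˣ ↦ 1 - a * μ ^ (u : ZMod q).val) hterm,
    Finset.prod_bij (t := (Finset.range q).erase 0) (g := fun i ↦ 1 - a * μ ^ i)
      (fun (u : (ZMod q)ˣ) _ ↦ (u : ZMod q).val)
      (fun u _ ↦ Finset.mem_erase.mpr ⟨fun h0 ↦ u.ne_zero ((ZMod.val_eq_zero _).mp h0),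
        Finset.mem_range.mpr (ZMod.val_lt _)⟩)
      (fun u _ v _ h ↦ Units.ext (ZMod.val_injective q h)) (fun i hi ↦ ?_) fun _ _ ↦ rfl]
  · have hR := prod_range_one_sub_mul_pow hμ hq.out.pos a
    have haq : a ^ q = a := by
      obtain ⟨k, hk⟩ := hdvdp
      have := hq.out.pos
      have hq1 : q = p * k + 1 := by omega
      calc a ^ q = a ^ (p * k + 1) := congrArg (a ^ ·) hq1
        _ = a := by rw [pow_succ, pow_mul, ← map_pow, hζ.pow_eq_one, map_one, one_pow, one_mul]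
    -- cancel the factor `i = 0`
    rw [← Finset.mul_prod_erase _ _ (Finset.mem_range.mpr hq.out.pos), pow_zero, mul_one, haq] at hR
    refine (mul_eq_left₀ (sub_ne_zero.mpr fun h1 ↦ hζ1 ?_)).mp hR
    exact FaithfulSMul.algebraMap_injective (𝓞 K) (𝓞 F) (by rw [map_one]; exact h1.symm)
  · obtain ⟨hi0, hi⟩ := Finset.mem_erase.mp hi
    have hne : (i : ZMod q) ≠ 0 := fun h ↦ hi0
      (Nat.eq_zero_of_dvd_of_lt ((ZMod.natCast_eq_zero_iff _ _).mp h) (Finset.mem_range.mp hi))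
    exact ⟨hne.isUnit.unit, Finset.mem_univ _, by
      rw [IsUnit.unit_spec, ZMod.val_natCast, Nat.mod_eq_of_lt (Finset.mem_range.mp hi)]⟩

omit hp hq in
/-- If `ε` is a unit with `ε (g β) = β` for a generator `g`, all conjugates of `β` span one
ideal. -/
private lemma span_singleton_smul_eq {g : F ≃ₐ[K] F} (hg : ∀ τ, τ ∈ Subgroup.zpowers g) {β ε : 𝓞 F}
    (hεunit : IsUnit ε) (hβ : ε * (g • β) = β) (τ : F ≃ₐ[K] F) :
    Ideal.span {τ • β} = Ideal.span {β} := by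
  obtain ⟨k, rfl⟩ := (mem_powers_iff_mem_zpowers).mpr (hg τ)
  show Ideal.span {(g ^ k) • β} = Ideal.span {β}
  induction k with
  | zero => rw [pow_zero, one_smul]
  | succ k ih =>
    rw [Ideal.span_singleton_eq_span_singleton] at ih ⊢
    have h1 : Associated (g • β) β := ⟨hεunit.unit, by rw [mul_comm]; exact hβ⟩
    have h2 := h1.map (MulSemiringAction.toRingHom (F ≃ₐ[K] F) (𝓞 F) (g ^ k))
    rw [MulSemiringAction.toRingHom_apply, MulSemiringAction.toRingHom_apply, ← mul_smul,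
      ← pow_succ] at h2
    exact h2.trans ih

omit hp hq [Algebra K F] in
/-- If `π` has exponent `1` and `β` exponent `k` at `Q`, then `β w = π ^ k b` for some `b`, `w`
outside `Q`. -/
private lemma exists_mul_eq_pow_mul {Q : Ideal (𝓞 F)} [Q.IsPrime] (hQbot : Q ≠ ⊥) {π β : 𝓞 F}
    (hπ0 : π ≠ 0) (hQπ : idealExp Q (Ideal.span {π}) = 1) (hβ0 : β ≠ 0) {k : ℕ}
    (hk : idealExp Q (Ideal.span {β}) = k) :
    ∃ b w : 𝓞 F, β * w = π ^ k * b ∧ b ∉ Q ∧ w ∉ Q := by
  have hQpr := Ideal.prime_of_isPrime hQbot (‹Q.IsPrime›)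
  obtain ⟨B, hB, hQB, -⟩ := exists_eq_pow_idealExp_mul hQpr
    (I := Ideal.span {π}) (by simpa using hπ0)
  rw [hQπ, pow_one] at hB
  obtain ⟨w, hwB, hwQ⟩ : ∃ w, w ∈ B ^ k ∧ w ∉ Q := by
    by_contra! h
    rcases Nat.eq_zero_or_pos (k) with h0 | h0
    · exact (‹Q.IsPrime›).ne_top ((Ideal.eq_top_iff_one _).mpr
        (h 1 (by rw [h0, pow_zero, Ideal.one_eq_top]; trivial)))
    · exact hQB (Ideal.dvd_iff_le.mpr (((‹Q.IsPrime›).pow_le_iff h0.ne').mp h))
  obtain ⟨A, hA, hQA, -⟩ := exists_eq_pow_idealExp_mul hQpr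
    (I := Ideal.span {β}) (by simpa using hβ0)
  rw [hk] at hA
  have hmem : β * w ∈ Q ^ k * B ^ k := Ideal.mul_mem_mul
    ((hA.le.trans Ideal.mul_le_left) (Ideal.mem_span_singleton_self β)) hwB
  rw [← mul_pow, ← hB, Ideal.span_singleton_pow, Ideal.mem_span_singleton] at hmem
  obtain ⟨b, hb⟩ := hmem
  refine ⟨b, w, hb, fun hbQ ↦ ?_, hwQ⟩
  -- otherwise `Q ^ (k + 1)` divides `β w`
  have h1 : β * w ∈ Q ^ (k + 1) := by
    rw [hb, pow_succ]
    refine Ideal.mul_mem_mul (Ideal.pow_mem_pow ?_ _) hbQ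
    exact (hB.le.trans Ideal.mul_le_left) (Ideal.mem_span_singleton_self _)
  rw [← Ideal.span_singleton_le_iff_mem, ← Ideal.span_singleton_mul_span_singleton,
    ← Ideal.dvd_iff_le, hA, mul_assoc, pow_succ,
    mul_dvd_mul_iff_left (pow_ne_zero _ hQpr.ne_zero)] at h1
  rcases hQpr.dvd_or_dvd h1 with h2 | h2
  · exact hQA h2
  · exact hwQ (Ideal.dvd_span_singleton.mp h2)

omit hp [NumberField K] in
/-- An automorphism fixing a prime with residue field `𝔽_q` acts trivially modulo it. -/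
private lemma smul_sub_self_mem {Q : Ideal (𝓞 F)} (hQnorm : Ideal.absNorm Q = q)
    {g : F ≃ₐ[K] F} (hQfix : g • Q = Q) (x : 𝓞 F) : g • x - x ∈ Q := by
  obtain ⟨m, hm⟩ := exists_natCast_sub_mem (hQnorm) x
  have h1 : g • (x - m) ∈ Q := hQfix ▸ Ideal.smul_mem_pointwise_smul g _ _ hm
  have h2 : g • (x - (m : 𝓞 F)) = g • x - m := by
    rw [smul_sub, ← MulSemiringAction.toRingHom_apply _ (𝓞 F) g (m : 𝓞 F), map_natCast]
  rw [h2] at h1
  simpa using sub_mem h1 hm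

omit hp [NumberField K] in
/-- The congruence at a totally ramified prime: if `(1 - ζ μ) (g β) = β` and `g μ = μ ^ t`, then
`(1 - ζ) t ^ k ≡ 1` modulo `R`, where `k` is the exponent of `β` at the prime over `R`. -/
private lemma one_sub_mul_pow_sub_one_mem {μ : 𝓞 F} (hμ : IsPrimitiveRoot μ q) {ζ : 𝓞 K}
    {R : Ideal (𝓞 K)} {Q : Ideal (𝓞 F)} [Q.IsPrime] [Q.LiesOver R] (hQnorm : Ideal.absNorm Q = q)
    (hQπ : idealExp Q (Ideal.span {μ - 1}) = 1) {g : F ≃ₐ[K] F} (hQfix : g • Q = Q) {t : ℕ}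
    (hgμ : g • μ = μ ^ t) {β : 𝓞 F} (hJ0 : Ideal.span {β} ≠ ⊥)
    (hβ : (1 - algebraMap (𝓞 K) (𝓞 F) ζ * μ) * (g • β) = β) {k : ℕ}
    (hk : idealExp Q (Ideal.span {β}) = k) : (1 - ζ) * (t : 𝓞 K) ^ k - 1 ∈ R := by
  set a : 𝓞 F := algebraMap (𝓞 K) (𝓞 F) ζ
  set ε : 𝓞 F := 1 - a * μ
  have hQbot : Q ≠ ⊥ := fun h ↦ hq.out.ne_zero (by rw [← hQnorm, h, Ideal.absNorm_bot])
  have hπ0 : μ - 1 ≠ 0 := sub_ne_zero.mpr (hμ.ne_one hq.out.one_lt)
  obtain ⟨b, w, hb, hbQ, hwQ⟩ := exists_mul_eq_pow_mul hQbot hπ0 hQπ (by simpa using hJ0) hk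
  -- `g (μ - 1) = (μ - 1) u` with `u ≡ t`
  set u : 𝓞 F := ∑ i ∈ Finset.range t, μ ^ i with hu
  have hgπ : g • (μ - 1) = (μ - 1) * u := by
    rw [smul_sub, smul_one, hgμ, hu, mul_geom_sum]
  have hμQ : μ - 1 ∈ Q := by
    by_contra h
    have h1 : idealExp Q (Ideal.span {μ - 1}) = 0 :=
      idealExp_eq_zero fun h' ↦ h (Ideal.dvd_span_singleton.mp h')
    omega
  have huQ : u - t ∈ Q := by
    rw [hu, show (t : 𝓞 F) = ∑ _i ∈ Finset.range t, (1 : 𝓞 F) by simp, ← Finset.sum_sub_distrib]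
    exact sum_mem fun i _ ↦ Ideal.mem_of_dvd _ (sub_one_dvd_pow_sub_one μ i) hμQ
  -- cancel `(μ - 1) ^ k` in `ε (g β) = β`
  have heq : (g • w) * b = ε * u ^ k * (g • b) * w := by
    refine mul_left_cancel₀ (pow_ne_zero k hπ0) ?_
    have h1 : (g • β) * (g • w) = (g • (μ - 1)) ^ k * (g • b) := by
      rw [← smul_mul', hb, smul_mul', smul_pow']
    calc (μ - 1) ^ k * ((g • w) * b) = ((μ - 1) ^ k * b) * (g • w) := by ring
      _ = β * w * (g • w) := by rw [hb]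
      _ = ε * ((g • β) * (g • w)) * w := by
          conv_lhs => rw [← hβ]
          ring
      _ = _ := by rw [h1, hgπ, mul_pow]; ring
  -- and read it modulo `Q`, where `g` is trivial and `μ ≡ 1`
  have hmain : (1 - a) * (t : 𝓞 F) ^ k - 1 ∈ Q := by
    have hmk : ∀ x y : 𝓞 F, x - y ∈ Q → Ideal.Quotient.mk (Q) x = Ideal.Quotient.mk (Q) y :=
      fun x y h ↦ Ideal.Quotient.eq.mpr h
    have hq0 : ∀ x : 𝓞 F, x ∉ Q → Ideal.Quotient.mk (Q) x ≠ 0 := fun x hx h ↦
      hx (Ideal.Quotient.eq_zero_iff_mem.mp h)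
    have e1 := congrArg (Ideal.Quotient.mk (Q)) heq
    have e2 : Ideal.Quotient.mk (Q) μ = 1 := by rw [hmk μ 1 hμQ, map_one]
    simp only [map_mul, map_pow, hmk _ _ (smul_sub_self_mem hQnorm hQfix w),
      hmk _ _ (smul_sub_self_mem hQnorm hQfix b), hmk _ _ huQ, ε, map_sub, map_one, e2,
      mul_one] at e1
    rw [← Ideal.Quotient.eq]
    simp only [map_mul, map_pow, map_sub, map_one]
    refine mul_right_cancel₀ (mul_ne_zero (hq0 b hbQ) (hq0 w hwQ)) ?_
    rw [one_mul]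
    linear_combination -e1
  rw [Ideal.LiesOver.over (P := Q) (p := R), Ideal.mem_under, map_sub, map_mul, map_pow,
    map_natCast, map_sub, map_one]
  exact hmain

/-- The character applied to `(γ)`: off the orbit of `P` the exponents of `γ` are divisible by `p`,
as
`(γ)` becomes a `(q - 1)`-st power in `K(ζ_q)`, so only the orbit of `P` contributes. -/
private lemma sum_exp_mul_idealChar_eq_zero {G : Type*} [Group G] [Fintype G]
    [MulSemiringAction G (𝓞 K)]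
    [IsGalois K F] [IsCyclotomicExtension {q} K F] {μ : 𝓞 F} (hμ : IsPrimitiveRoot μ q)
    (hdvdp : p ∣ q - 1) (hinj : Function.Injective fun σ : G ↦ σ • P)
    (hmax : ∀ σ : G, (σ • P).IsMaximal) (hspan : ∏ σ : G, σ • P = Ideal.span {(q : 𝓞 K)})
    (ψ : ClassGroup (𝓞 K) →* Multiplicative (ZMod p)) (n : G → ℕ)
    (hψ : ∀ σ : G, idealChar ψ (σ • P) = (n σ : ZMod p) * idealChar ψ P)
    {γ : 𝓞 K} (hγ0 : γ ≠ 0) {J : Ideal (𝓞 F)}
    (hγmap : (Ideal.span {γ}).map (algebraMap (𝓞 K) (𝓞 F)) = J ^ (q - 1)) :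
    (∑ σ : G, (idealExp (σ • P) (Ideal.span {γ}) : ZMod p) * (n σ : ZMod p)) * idealChar ψ P
      = 0 := by
  have hγbot : Ideal.span {γ} ≠ ⊥ := by simpa using hγ0
  have h := idealChar_eq_sum ψ hγbot
  rw [idealChar_principal ψ hγ0] at h
  rw [Finset.sum_mul]
  refine Eq.trans ?_ h.symm
  set T := (normalizedFactors (Ideal.span {γ})).toFinset
  -- The character of the principal ideal `(γ)` is zero; compute it on the prime factors.
  calc ∑ σ : G, (idealExp (σ • P) (Ideal.span {γ}) : ZMod p) * (n σ : ZMod p) * idealChar ψ P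
      = ∑ R ∈ Finset.univ.image (fun σ : G ↦ σ • P),
          (idealExp R (Ideal.span {γ}) : ZMod p) * idealChar ψ R := by
        rw [Finset.sum_image hinj.injOn]
        exact Finset.sum_congr rfl fun σ _ ↦ by rw [hψ σ, mul_assoc]
    _ = ∑ R ∈ T, (idealExp R (Ideal.span {γ}) : ZMod p) * idealChar ψ R := by
        refine Eq.trans (Finset.sum_subset (Finset.subset_union_left (s₂ := T)) ?_)
          (Finset.sum_subset
            (Finset.subset_union_right (s₁ := Finset.univ.image (fun σ : G ↦ σ • P))) ?_).symm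
        on_goal 2 =>
          intro R _ hR
          rw [show idealExp R (Ideal.span {γ}) = 0 from
            Multiset.count_eq_zero.mpr fun h ↦ hR (Multiset.mem_toFinset.mpr h)]
          simp
        · intro R hR hR'
          have hRT : R ∈ T := (Finset.mem_union.mp hR).resolve_left hR'
          have hpr := prime_of_normalized_factor R (Multiset.mem_toFinset.mp hRT)
          have : R.IsPrime := Ideal.isPrime_of_prime hpr
          have hRmax : R.IsMaximal := Ideal.IsPrime.isMaximal ‹_› hpr.ne_zero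
          -- Away from `q` the ideal `(γ)` is a `(q - 1)`-st power in an unramified extension.
          have hqR : (q : 𝓞 K) ∉ R := by
            intro hmem
            have hdvd : R ∣ ∏ σ : G, σ • P := hspan ▸ Ideal.dvd_span_singleton.mpr hmem
            obtain ⟨σ, -, hσ⟩ := hpr.exists_mem_finset_dvd hdvd
            exact hR' (Finset.mem_image.mpr ⟨σ, Finset.mem_univ σ,
              (hmax σ).eq_of_le hRmax.ne_top (Ideal.le_of_dvd hσ)⟩)
          obtain ⟨Q', hQ'max, hQ'R⟩ :=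
            Ideal.exists_maximal_ideal_liesOver_of_isIntegral (S := 𝓞 F) R
          have he := idealExp_map (F := F) (Q := Q') hpr.ne_zero hγbot
          rw [idealExp_map_self_eq_one (q := q) hμ (Q := Q') hpr.ne_zero hqR, hγmap,
            idealExp_pow, one_mul] at he
          rw [← he, Nat.cast_mul, (ZMod.natCast_eq_zero_iff _ _).mpr hdvdp]
          simp

omit hp in
/-- Hilbert 90 for `ε = 1 - ζ μ`, of norm `1`: some `β ≠ 0` has `ε (g β) = β`, and then all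
conjugates of `β` span one ideal, as `ε` is a unit. -/
private lemma exists_one_sub_mul_smul_eq [IsGalois K F] {μ' : F} (hμ' : IsPrimitiveRoot μ' q)
    {ζ : 𝓞 K} (hζ : IsPrimitiveRoot ζ p) (hζ1 : ζ ≠ 1) (hdvdp : p ∣ q - 1)
    (hbij : Function.Bijective (hμ'.autToPow K)) {g : F ≃ₐ[K] F}
    (hg : ∀ τ, τ ∈ Subgroup.zpowers g) :
    ∃ β : 𝓞 F, β ≠ 0 ∧ (1 - algebraMap (𝓞 K) (𝓞 F) ζ * hμ'.toInteger) * (g • β) = β ∧
      ∀ τ : F ≃ₐ[K] F, Ideal.span {τ • β} = Ideal.span {β} := by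
  set ε : 𝓞 F := 1 - algebraMap (𝓞 K) (𝓞 F) ζ * hμ'.toInteger
  have hprod : ∏ τ : F ≃ₐ[K] F, τ • ε = 1 :=
    prod_smul_one_sub_mul_eq_one hμ' hζ hζ1 hdvdp hbij
  have hnorm : Algebra.norm K (ε : F) = 1 := by
    refine (algebraMap K F).injective ?_
    rw [Algebra.norm_eq_prod_automorphisms, map_one]
    have := congrArg (algebraMap (𝓞 F) F) hprod
    rw [map_prod, map_one] at this
    exact this
  have hεunit : IsUnit ε := by
    refine IsUnit.of_mul_eq_one (∏ τ ∈ Finset.univ.erase (1 : F ≃ₐ[K] F), τ • ε) ?_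
    have h := Finset.mul_prod_erase Finset.univ (fun τ : F ≃ₐ[K] F ↦ τ • ε) (Finset.mem_univ 1)
    rw [one_smul] at h
    exact h.trans hprod
  have : IsCyclic (F ≃ₐ[K] F) := ⟨⟨g, hg⟩⟩
  obtain ⟨β, hβ0, h⟩ := groupCohomology.exists_mul_galRestrict_of_norm_eq_one (A := 𝓞 K) (K := K)
    (L := F) (B := 𝓞 F) hg (η := ε) hnorm
  have hβ : ε * (g • β) = β := by
    convert h using 2
    apply RingOfIntegers.ext
    exact (algebraMap_galRestrict_apply (𝓞 K) g β).symm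
  exact ⟨β, hβ0, hβ, span_singleton_smul_eq hg hεunit hβ⟩

omit hp hq in
/-- If all conjugates of `β` span one ideal, the norm of `β` generates its power by the degree. -/
private lemma map_span_norm_eq_pow [IsGalois K F] {β : 𝓞 F}
    (hβ : ∀ τ : F ≃ₐ[K] F, Ideal.span {τ • β} = Ideal.span {β}) :
    (Ideal.span {RingOfIntegers.norm K β}).map (algebraMap (𝓞 K) (𝓞 F)) =
      Ideal.span {β} ^ Nat.card (F ≃ₐ[K] F) := by
  have h : algebraMap (𝓞 K) (𝓞 F) (RingOfIntegers.norm K β) = ∏ τ : F ≃ₐ[K] F, τ • β := by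
    apply RingOfIntegers.ext
    show algebraMap (𝓞 F) F _ = algebraMap (𝓞 F) F (∏ τ : F ≃ₐ[K] F, τ • β)
    rw [map_prod]
    refine (RingOfIntegers.coe_algebraMap_norm K β).trans ?_
    rw [Algebra.norm_eq_prod_automorphisms]
    rfl
  rw [Ideal.map_span, Set.image_singleton, h, ← Ideal.prod_span_singleton,
    Finset.prod_congr rfl fun τ _ ↦ hβ τ, Finset.prod_const, Finset.card_univ,
    ← Nat.card_eq_fintype_card]

omit hp hq in
/-- If `R` and `I` become the `e`-th powers of `Q` and `J` upstairs, then the exponent of `J` at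
`Q` is the exponent of `I` at `R`. -/
private lemma idealExp_eq_of_map_eq_pow {R I : Ideal (𝓞 K)} [R.IsMaximal] {Q J : Ideal (𝓞 F)}
    [Q.IsPrime] [Q.LiesOver R] {e : ℕ} (he : 0 < e) (hR : R ≠ ⊥) (hI : I ≠ ⊥)
    (hRQ : R.map (algebraMap (𝓞 K) (𝓞 F)) = Q ^ e)
    (hIJ : I.map (algebraMap (𝓞 K) (𝓞 F)) = J ^ e) :
    idealExp Q J = idealExp R I := by
  have hQbot : Q ≠ ⊥ := Ideal.ne_bot_of_liesOver_of_ne_bot hR Q
  have h := idealExp_map (F := F) (Q := Q) hR hI
  rw [hIJ, idealExp_pow, hRQ, idealExp_pow,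
    idealExp_self (Ideal.prime_of_isPrime hQbot ‹Q.IsPrime›), mul_one] at h
  exact Nat.eq_of_mul_eq_mul_left he h

end steps

omit hp in
/-- The final congruence: `∏ σ⁻¹ (1 - ζ) ^ n σ` is a `p`-th power modulo `P`. -/
private lemma exists_twistedUnit_sub_pow_mem {G : Type*} [Group G] [Fintype G]
    [MulSemiringAction G (𝓞 K)]
    [P.IsPrime] (hP : Ideal.absNorm P = q) (hq3 : 3 ≤ q) {ζ : 𝓞 K} {t : ℕ} (ht0 : t ≠ 0)
    (htq : t < q)
    (k n : G → ℕ) (hcong : ∀ σ : G, (1 - ζ) * (t : 𝓞 K) ^ k σ - 1 ∈ σ • P)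
    (hsum : p ∣ ∑ σ : G, k σ * n σ) :
    ∃ x : 𝓞 K, twistedUnit n ζ - x ^ p ∈ P := by
  have : P.IsMaximal := Ideal.IsPrime.isMaximal ‹_› fun h ↦
    hq.out.ne_zero (by rw [← hP, h, Ideal.absNorm_bot])
  obtain ⟨l, hl⟩ := hsum
  refine ⟨(t : 𝓞 K) ^ ((q - 2) * l), ?_⟩
  -- `t ^ (q - 1) = 1` modulo `P`.
  have htP : (t : 𝓞 K) ^ (q - 1) - 1 ∈ P := by
    refine pow_sub_one_sub_one_mem hP fun h ↦ ?_
    have h1 : q ∣ t := by
      have := Ideal.absNorm_dvd_absNorm_of_le ((Ideal.span_singleton_le_iff_mem P).mpr h)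
      rw [hP, Ideal.absNorm_span_singleton, show (t : 𝓞 K) = algebraMap ℤ (𝓞 K) t by simp,
        Algebra.norm_algebraMap, Int.natAbs_pow, Int.natAbs_natCast] at this
      exact hq.out.dvd_of_dvd_pow this
    have h2 := Nat.eq_zero_of_dvd_of_lt h1 htq
    exact ht0 h2
  rw [← Ideal.Quotient.eq, twistedUnit, map_prod]
  set f := Ideal.Quotient.mk P
  have hft : f (t : 𝓞 K) ^ (q - 1) = 1 := by
    rw [← map_pow, ← map_one f]; exact Ideal.Quotient.eq.mpr htP
  -- The conjugates of `1 - ζ` are powers of `t⁻¹` there, and `p` divides the total exponent.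
  have hterm : ∀ σ : G, f (σ⁻¹ • (1 - ζ)) * f (t : 𝓞 K) ^ k σ = 1 := by
    intro σ
    have h := Ideal.smul_mem_pointwise_smul σ⁻¹ _ _ (hcong σ)
    rw [inv_smul_smul, smul_sub, smul_one, smul_mul', smul_pow',
      show σ⁻¹ • (t : 𝓞 K) = t by
        rw [← MulSemiringAction.toRingHom_apply _ (𝓞 K) σ⁻¹ (t : 𝓞 K), map_natCast]] at h
    rw [← map_pow, ← map_mul, ← map_one f]
    exact Ideal.Quotient.eq.mpr h
  have h1 : (∏ σ : G, f ((σ⁻¹ • (1 - ζ)) ^ n σ)) * f (t : 𝓞 K) ^ (p * l) = 1 := by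
    rw [← hl, ← Finset.prod_pow_eq_pow_sum, ← Finset.prod_mul_distrib]
    refine Finset.prod_eq_one fun σ _ ↦ ?_
    rw [map_pow, pow_mul, ← mul_pow, hterm, one_pow]
  rw [map_pow, map_pow, ← pow_mul]
  calc (∏ σ : G, f ((σ⁻¹ • (1 - ζ)) ^ n σ))
      = (∏ σ : G, f ((σ⁻¹ • (1 - ζ)) ^ n σ)) * (f (t : 𝓞 K) ^ (q - 1)) ^ (p * l) := by
        rw [hft, one_pow, mul_one]
    _ = ((∏ σ : G, f ((σ⁻¹ • (1 - ζ)) ^ n σ)) * f (t : 𝓞 K) ^ (p * l)) *
          f (t : 𝓞 K) ^ ((q - 2) * (p * l)) := by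
        rw [← pow_mul, mul_assoc, ← pow_add]
        congr 2
        obtain ⟨m, rfl⟩ : ∃ m, q = m + 2 := ⟨q - 2, by omega⟩
        simp only [Nat.add_sub_cancel, show m + 2 - 1 = m + 1 by omega]
        ring
    _ = _ := by rw [h1, one_mul]; congr 1; ring

/-! ### The relation -/

/-- Thaine's relation. -/
theorem thaine {G : Type*} [Group G] [Fintype G]
    [MulSemiringAction G (𝓞 K)]
    (hcard : Fintype.card G = Module.finrank ℚ K) {ζ : 𝓞 K} (hζ : IsPrimitiveRoot ζ p)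
    (h3 : 3 ≤ p) [P.IsPrime] (hP : Ideal.absNorm P = q) (hpP : (p : 𝓞 K) ∉ P)
    (hfree : ∀ σ : G, σ • P = P → σ = 1)
    (ψ : ClassGroup (𝓞 K) →* Multiplicative (ZMod p)) (n : G → ℕ)
    (hψ : ∀ σ : G, idealChar ψ (σ • P) = (n σ : ZMod p) * idealChar ψ P)
    (hne : idealChar ψ P ≠ 0) :
    ∃ x : 𝓞 K, twistedUnit n ζ - x ^ p ∈ P := by
  have hPbot : P ≠ ⊥ := fun h ↦
    hq.out.ne_zero (by rw [← hP, h, Ideal.absNorm_bot])
  have hPmax : P.IsMaximal := Ideal.IsPrime.isMaximal ‹_› hPbot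
  have hdvdp : p ∣ q - 1 := by
    have := dvd_sub_one_of_primitiveRoot (P := ⟨P, ‹P.IsPrime›, hPbot⟩) hζ (hP ▸ hq.out) hpP
    rwa [show Ideal.absNorm P = q from hP] at this
  have hq3 : 3 ≤ q := by
    have := hq.out.two_le
    have := Nat.le_of_dvd (by omega) hdvdp
    omega
  -- Adjoin the `q`-th roots of unity, where each conjugate of `P` is totally ramified.
  let F := CyclotomicField q K
  have : NeZero (q : K) := ⟨Nat.cast_ne_zero.mpr hq.out.ne_zero⟩
  have : IsCyclotomicExtension {q} K F := CyclotomicField.isCyclotomicExtension q K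
  have : NumberField F := IsCyclotomicExtension.numberField {q} K F
  have : IsGalois K F := IsCyclotomicExtension.isGalois {q} K F
  obtain ⟨μ', hμ'⟩ := IsCyclotomicExtension.exists_isPrimitiveRoot K F (S := {q})
    (Set.mem_singleton q) hq.out.ne_zero
  let μ : 𝓞 F := hμ'.toInteger
  have hμ : IsPrimitiveRoot μ q := hμ'.toInteger_isPrimitiveRoot
  have hne' : ∀ σ : G, σ • P ≠ ⊥ := fun σ h ↦ hq.out.ne_zero (by
    rw [← hP, ← absNorm_smul σ P, h, Ideal.absNorm_bot])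
  have hmax : ∀ σ : G, (σ • P).IsMaximal := fun σ ↦
    Ideal.IsPrime.isMaximal inferInstance (hne' σ)
  have htot : ∀ σ : G, ∃ Q : Ideal (𝓞 F), Q.IsPrime ∧ Q.LiesOver (σ • P) ∧ Ideal.absNorm Q = q ∧
      Nat.card (F ≃ₐ[K] F) = q - 1 ∧ (σ • P).map (algebraMap (𝓞 K) (𝓞 F)) = Q ^ (q - 1) ∧
      idealExp Q (Ideal.span {μ - 1}) = 1 ∧ ∀ τ : F ≃ₐ[K] F, τ • Q = Q := fun σ ↦
    @totallyRamified K _ _ q hq F _ _ _ _ _ μ hμ hq3 (σ • P) (hmax σ)
      (by rw [absNorm_smul, hP]) (idealExp_orbit_span_natCast hP hcard hfree σ)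
  choose Q hQprime hQover hQnorm hQcard hQmap hQπ hQfix using htot
  have hGcard : Nat.card (F ≃ₐ[K] F) = q - 1 := hQcard 1
  have hbij : Function.Bijective (hμ'.autToPow K) := by
    rw [Nat.bijective_iff_injective_and_card]
    exact ⟨hμ'.autToPow_injective K, by rw [hGcard, Nat.card_eq_fintype_card, ZMod.card_units q]⟩
  have : IsCyclic (F ≃ₐ[K] F) :=
    isCyclic_of_injective (hμ'.autToPow K) hbij.injective
  obtain ⟨g, hg⟩ := IsCyclic.exists_generator (α := F ≃ₐ[K] F)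
  set t : ℕ := (hμ'.autToPow K g : ZMod q).val
  have hgμ : g • μ = μ ^ t := RingOfIntegers.ext (hμ'.autToPow_spec K g).symm
  -- By Hilbert 90 `1 - ζ` is a ratio of some `β` and a conjugate; let `γ` be the norm of `β`.
  obtain ⟨β, hβ0, hβ, hJg⟩ :=
    exists_one_sub_mul_smul_eq hμ' hζ (hζ.ne_one hp.out.one_lt) hdvdp hbij hg
  set J := Ideal.span {β}
  have hJ0 : J ≠ ⊥ := by simpa [J] using hβ0
  set γ : 𝓞 K := RingOfIntegers.norm K β
  have hγmap : (Ideal.span {γ}).map (algebraMap (𝓞 K) (𝓞 F)) = J ^ (q - 1) :=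
    hGcard ▸ map_span_norm_eq_pow hJg
  have hγ0 : γ ≠ 0 := fun h ↦ pow_ne_zero (q - 1) hJ0 (by
    rw [← hγmap, h, Ideal.span_singleton_zero, Ideal.map_bot]; rfl)
  set k : G → ℕ := fun σ ↦ idealExp (σ • P) (Ideal.span {γ})
  have hk : ∀ σ : G, idealExp (Q σ) J = k σ := fun σ ↦
    have := hmax σ
    have := hQprime σ
    have := hQover σ
    idealExp_eq_of_map_eq_pow (by omega) (hne' σ) (by simpa using hγ0) (hQmap σ) hγmap
  have hcong : ∀ σ : G, (1 - ζ) * (t : 𝓞 K) ^ k σ - 1 ∈ σ • P := fun σ ↦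
    have := hQprime σ
    have := hQover σ
    one_sub_mul_pow_sub_one_mem hμ (hQnorm σ) (hQπ σ) (hQfix σ g) hgμ hJ0 hβ (hk σ)
  -- Applying `ψ` to `(γ)` gives `p ∣ ∑ k σ n σ`, and the congruence follows.
  have hzero : (∑ σ : G, (k σ : ZMod p) * (n σ : ZMod p)) * idealChar ψ P = 0 :=
    sum_exp_mul_idealChar_eq_zero hμ hdvdp (smul_injective_of_free hfree) hmax
      (prod_orbit_eq_span hP hcard hfree) ψ n hψ hγ0 hγmap
  have hsum : p ∣ ∑ σ : G, k σ * n σ := by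
    rw [← ZMod.natCast_eq_zero_iff]
    push_cast
    exact (mul_eq_zero.mp hzero).resolve_right hne
  have ht0 : t ≠ 0 := fun h ↦ (hμ'.autToPow K g).ne_zero ((ZMod.val_eq_zero _).mp h)
  exact exists_twistedUnit_sub_pow_mem hP hq3 ht0 (ZMod.val_lt _) k n hcong hsum

end Fermat.Agent.ClassField
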